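import Mathlib
import Fermat.Agent.S20.Defs
import Fermat.Agent.S23.Glue

/-!
# S20M: the "minimal-weight frame" route to the dimension formula — definitions and basic API

`X = X0 N = SL(2,ℤ) ⧸ Γ₀(N)`.  For a weight-`k` `Γ₀(N)`-invariant function `f` and a coset
`x = gΓ₀(N)` the conjugate `conjK N k f x = f ∣[k] g⁻¹` is well defined.  A *frame* is a family
`f : X → ℍ → ℂ` of modular forms on `Γ₀(N)` of weights `k : X → ℤ` such that the square matrix
`Mat N k f τ = (conjK N (k i) (f i) x τ)_{i,x}` has a determinant which is not identically zero.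
-/

set_option autoImplicit false

open UpperHalfPlane hiding I
open Complex Filter Function
open scoped Manifold MatrixGroups ModularForm Topology

namespace Fermat.Agent.S20M

open Fermat.Agent.S20 (X0)
open CongruenceSubgroup

noncomputable instance instFintypeX0 (N : ℕ) [NeZero N] : Fintype (X0 N) := Fintype.ofFinite _

noncomputable instance instDecEqX0 (N : ℕ) : DecidableEq (X0 N) := Classical.decEq _

/-- Function-level modular forms of weight `k` on `Γ₀(N)`. -/
structure IsMF (N : ℕ) (k : ℤ) (f : ℍ → ℂ) : Prop where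
  mdiff : MDiff f
  inv : ∀ γ ∈ Gamma0 N, f ∣[k] γ = f
  bdd : ∀ g : SL(2, ℤ), IsBoundedAtImInfty (f ∣[k] g)

/-- Function-level modular forms of weight `m` and level one. -/
structure IsL1 (m : ℤ) (E : ℍ → ℂ) : Prop where
  mdiff : MDiff E
  inv : ∀ g : SL(2, ℤ), E ∣[m] g = E
  bdd : IsBoundedAtImInfty E

/-- The weight-`k` conjugate of `f` attached to the coset `x = gΓ₀(N)`: `f ∣[k] g⁻¹`. -/
noncomputable def conjK (N : ℕ) (k : ℤ) (f : ℍ → ℂ) (x : X0 N) : ℍ → ℂ :=
  f ∣[k] (Quotient.out x : SL(2, ℤ))⁻¹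

/-- The matrix of conjugates of a family of forms. Rows: forms; columns: cosets. -/
noncomputable def Mat (N : ℕ) (k : X0 N → ℤ) (f : X0 N → ℍ → ℂ) (τ : ℍ) :
    Matrix (X0 N) (X0 N) ℂ :=
  Matrix.of fun i x => conjK N (k i) (f i) x τ

theorem Mat_apply (N : ℕ) (k : X0 N → ℤ) (f : X0 N → ℍ → ℂ) (τ : ℍ) (i x : X0 N) :
    Mat N k f τ i x = conjK N (k i) (f i) x τ := rfl

/-- A frame: modular forms `f i` of weights `k i` whose conjugate matrix is generically
invertible. -/
structure IsFrame (N : ℕ) [NeZero N] (k : X0 N → ℤ) (f : X0 N → ℍ → ℂ) : Prop where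
  mf : ∀ i, IsMF N (k i) (f i)
  det_ne : ∃ τ : ℍ, (Mat N k f τ).det ≠ 0

/-- A frame of minimal total weight. -/
def IsMinFrame (N : ℕ) [NeZero N] (k : X0 N → ℤ) (f : X0 N → ℍ → ℂ) : Prop :=
  IsFrame N k f ∧ ∀ (k' : X0 N → ℤ) (f' : X0 N → ℍ → ℂ), IsFrame N k' f' → ∑ i, k i ≤ ∑ i, k' i

end Fermat.Agent.S20M
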