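import Mathlib
import Fermat.Agent.S20M.Defs
import Fermat.Agent.S23.Analysis

/-!
# S20M: basic API for `IsMF`, `IsL1`, `conjK`, `Mat`
-/

set_option autoImplicit false

open UpperHalfPlane hiding I
open Complex Filter Function
open scoped Manifold MatrixGroups ModularForm Topology
open ModularForm EisensteinSeries

namespace Fermat.Agent.S20M

open Fermat.Agent.S20 (X0)
open CongruenceSubgroup

/-! ### Slash action helpers -/

theorem slash_apply' (k : ℤ) (f : ℍ → ℂ) (γ : SL(2, ℤ)) (τ : ℍ) :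
    (f ∣[k] γ) τ = f (γ • τ) * denom γ τ ^ (-k) :=
  ModularForm.SL_slash_apply f γ τ

theorem denom_ne_zero' (γ : SL(2, ℤ)) (τ : ℍ) : denom γ τ ≠ 0 :=
  UpperHalfPlane.denom_ne_zero _ τ

theorem smul_apply_of_slash (k : ℤ) (f : ℍ → ℂ) (γ : SL(2, ℤ)) (τ : ℍ) :
    f (γ • τ) = denom γ τ ^ k * (f ∣[k] γ) τ := by
  rw [slash_apply', mul_comm (f (γ • τ)), ← mul_assoc, ← zpow_add₀ (denom_ne_zero' γ τ)]
  simp

theorem slash_slash (k : ℤ) (f : ℍ → ℂ) (g h : SL(2, ℤ)) :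
    (f ∣[k] g) ∣[k] h = f ∣[k] (g * h) :=
  (SlashAction.slash_mul k g h f).symm

theorem slash_one' (k : ℤ) (f : ℍ → ℂ) : f ∣[k] (1 : SL(2, ℤ)) = f :=
  SlashAction.slash_one k f

/-! ### `conjK` -/

theorem conjK_mk {N : ℕ} {k : ℤ} {f : ℍ → ℂ} (hf : ∀ γ ∈ Gamma0 N, f ∣[k] γ = f)
    (g : SL(2, ℤ)) : conjK N k f (g : X0 N) = f ∣[k] g⁻¹ := by
  obtain ⟨h, hh⟩ := QuotientGroup.mk_out_eq_mul (Gamma0 N) g
  unfold conjK
  have e : (Quotient.out (g : X0 N) : SL(2, ℤ)) = g * h := hh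
  rw [e, mul_inv_rev, ← slash_slash, hf _ ((Gamma0 N).inv_mem h.2)]

theorem conjK_one {N : ℕ} {k : ℤ} {f : ℍ → ℂ} (hf : ∀ γ ∈ Gamma0 N, f ∣[k] γ = f) :
    conjK N k f ((1 : SL(2, ℤ)) : X0 N) = f := by
  rw [conjK_mk hf, inv_one, slash_one']

theorem conjK_slash {N : ℕ} {k : ℤ} {f : ℍ → ℂ} (hf : ∀ γ ∈ Gamma0 N, f ∣[k] γ = f)
    (x : X0 N) (σ : SL(2, ℤ)) : (conjK N k f x) ∣[k] σ = conjK N k f (σ⁻¹ • x) := by
  induction x using QuotientGroup.induction_on with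
  | H g =>
    have e : σ⁻¹ • (g : X0 N) = ((σ⁻¹ * g : SL(2, ℤ)) : X0 N) := rfl
    rw [e, conjK_mk hf, conjK_mk hf, slash_slash, mul_inv_rev, inv_inv]

theorem conjK_smul_apply {N : ℕ} {k : ℤ} {f : ℍ → ℂ} (hf : ∀ γ ∈ Gamma0 N, f ∣[k] γ = f)
    (x : X0 N) (σ : SL(2, ℤ)) (τ : ℍ) :
    conjK N k f x (σ • τ) = denom σ τ ^ k * conjK N k f (σ⁻¹ • x) τ := by
  rw [smul_apply_of_slash k (conjK N k f x) σ τ, conjK_slash hf]

theorem conjK_add (N : ℕ) (k : ℤ) (f g : ℍ → ℂ) (x : X0 N) :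
    conjK N k (f + g) x = conjK N k f x + conjK N k g x := by
  unfold conjK
  exact SlashAction.add_slash k _ f g

theorem conjK_smul (N : ℕ) (k : ℤ) (c : ℂ) (f : ℍ → ℂ) (x : X0 N) :
    conjK N k (c • f) x = c • conjK N k f x := by
  unfold conjK
  exact ModularForm.SL_smul_slash k _ f c

theorem conjK_sum (N : ℕ) (k : ℤ) {ι : Type*} (s : Finset ι) (f : ι → ℍ → ℂ) (x : X0 N) :
    conjK N k (∑ i ∈ s, f i) x = ∑ i ∈ s, conjK N k (f i) x := by
  unfold conjK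
  exact SlashAction.sum_slash k _

theorem conjK_zero (N : ℕ) (k : ℤ) (x : X0 N) : conjK N k 0 x = 0 := by
  unfold conjK
  exact SlashAction.zero_slash k _

/-- Conjugation is compatible with multiplication by a level-one form. -/
theorem conjK_mul_of_isL1 (N : ℕ) {m : ℤ} {E : ℍ → ℂ} (hE : IsL1 m E) (k : ℤ) (f : ℍ → ℂ)
    (x : X0 N) : conjK N (m + k) (E * f) x = E * conjK N k f x := by
  unfold conjK
  rw [ModularForm.mul_slash_SL2, hE.inv]

/-! ### `IsMF` -/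

theorem IsMF.slash_mdiff {N : ℕ} {k : ℤ} {f : ℍ → ℂ} (hf : IsMF N k f) (g : SL(2, ℤ)) :
    MDiff (f ∣[k] g) :=
  hf.mdiff.slash k _

theorem IsMF.conjK_mdiff {N : ℕ} {k : ℤ} {f : ℍ → ℂ} (hf : IsMF N k f) (x : X0 N) :
    MDiff (conjK N k f x) :=
  hf.slash_mdiff _

theorem IsMF.conjK_bdd {N : ℕ} {k : ℤ} {f : ℍ → ℂ} (hf : IsMF N k f) (x : X0 N) :
    IsBoundedAtImInfty (conjK N k f x) :=
  hf.bdd _

theorem IsMF.conjK_slash_bdd {N : ℕ} {k : ℤ} {f : ℍ → ℂ} (hf : IsMF N k f) (x : X0 N)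
    (σ : SL(2, ℤ)) : IsBoundedAtImInfty ((conjK N k f x) ∣[k] σ) := by
  rw [conjK_slash hf.inv]
  exact hf.conjK_bdd _

theorem isMF_zero (N : ℕ) (k : ℤ) : IsMF N k 0 where
  mdiff := mdifferentiable_const
  inv := fun γ _ => SlashAction.zero_slash k _
  bdd := fun g => by
    rw [SlashAction.zero_slash]
    exact zero_form_isBoundedAtImInfty

theorem IsMF.add {N : ℕ} {k : ℤ} {f g : ℍ → ℂ} (hf : IsMF N k f) (hg : IsMF N k g) :
    IsMF N k (f + g) where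
  mdiff := hf.mdiff.add hg.mdiff
  inv := fun γ hγ => by rw [SlashAction.add_slash, hf.inv γ hγ, hg.inv γ hγ]
  bdd := fun σ => by
    rw [SlashAction.add_slash]
    exact (hf.bdd σ).add (hg.bdd σ)

theorem IsMF.const_smul {N : ℕ} {k : ℤ} {f : ℍ → ℂ} (hf : IsMF N k f) (c : ℂ) :
    IsMF N k (c • f) where
  mdiff := hf.mdiff.const_smul c
  inv := fun γ hγ => by rw [ModularForm.SL_smul_slash, hf.inv γ hγ]
  bdd := fun σ => by
    rw [ModularForm.SL_smul_slash]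
    exact (hf.bdd σ).const_smul_left c

theorem IsMF.sum {N : ℕ} {k : ℤ} {ι : Type*} (s : Finset ι) {f : ι → ℍ → ℂ}
    (hf : ∀ i ∈ s, IsMF N k (f i)) : IsMF N k (∑ i ∈ s, f i) := by
  classical
  induction s using Finset.induction_on with
  | empty => simpa using isMF_zero N k
  | insert a s ha ih =>
    rw [Finset.sum_insert ha]
    exact (hf a (Finset.mem_insert_self a s)).add
      (ih fun i hi => hf i (Finset.mem_insert_of_mem hi))

/-- Multiplying a form on `Γ₀(N)` by a level-one form. -/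
theorem IsL1.mul_isMF {N : ℕ} {m k : ℤ} {E f : ℍ → ℂ} (hE : IsL1 m E) (hf : IsMF N k f) :
    IsMF N (m + k) (E * f) where
  mdiff := hE.mdiff.mul hf.mdiff
  inv := fun γ hγ => by rw [ModularForm.mul_slash_SL2, hE.inv, hf.inv γ hγ]
  bdd := fun σ => by
    rw [ModularForm.mul_slash_SL2, hE.inv]
    exact hE.bdd.mul (hf.bdd σ)

theorem IsMF.congr_weight {N : ℕ} {k k' : ℤ} {f : ℍ → ℂ} (hf : IsMF N k f) (h : k = k') :
    IsMF N k' f := h ▸ hf

/-- `IsMF` functions are exactly the coercions of modular forms on `Γ₀(N)`. -/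
theorem IsMF.exists_modularForm {N : ℕ} [NeZero N] {k : ℤ} {f : ℍ → ℂ} (hf : IsMF N k f) :
    ∃ G : ModularForm (Gamma0 N) k, (⇑G : ℍ → ℂ) = f :=
  Fermat.Agent.S23.Glue.exists_modularForm_of_mdiff N k f hf.mdiff hf.inv hf.bdd

theorem isMF_coe (N : ℕ) [NeZero N] {k : ℤ} (G : ModularForm (Gamma0 N) k) :
    IsMF N k (⇑G : ℍ → ℂ) where
  mdiff := G.holo'
  inv := fun γ hγ => Fermat.Agent.S23.Glue.modularForm_slash_Gamma0 N G γ hγ
  bdd := fun σ => Fermat.Agent.S23.Glue.modularForm_slash_isBoundedAtImInfty N G σ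

/-- A nonzero modular form on `Γ₀(N)` has nonnegative weight. -/
theorem IsMF.eq_zero_of_neg {N : ℕ} [NeZero N] {k : ℤ} {f : ℍ → ℂ} (hf : IsMF N k f)
    (hk : k < 0) : f = 0 := by
  obtain ⟨G, rfl⟩ := hf.exists_modularForm
  rw [ModularForm.isZero_of_neg_weight hk G]
  rfl

theorem neg_one_mem_Gamma0 (N : ℕ) : (-1 : SL(2, ℤ)) ∈ Gamma0 N := by
  rw [CongruenceSubgroup.Gamma0_mem]
  simp

/-- A nonzero modular form on `Γ₀(N)` has even weight. -/
theorem IsMF.even_of_ne_zero {N : ℕ} {k : ℤ} {f : ℍ → ℂ} (hf : IsMF N k f) (h0 : f ≠ 0) :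
    Even k := by
  by_contra hodd
  rw [Int.not_even_iff_odd] at hodd
  apply h0
  have h1 := hf.inv (-1) (neg_one_mem_Gamma0 N)
  funext τ
  have h2 := congrFun h1 τ
  rw [slash_apply'] at h2
  have hd : denom (-1 : SL(2, ℤ)) τ = -1 := by
    simp [denom]
  have hs : (-1 : SL(2, ℤ)) • τ = τ := by
    apply UpperHalfPlane.ext
    rw [UpperHalfPlane.specialLinearGroup_apply]
    simp
  rw [hd, hs, Odd.neg_one_zpow (by simpa using hodd.neg)] at h2
  have : f τ = 0 := by linear_combination (-1 / 2 : ℂ) * h2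
  simpa using this

/-! ### `IsL1` -/

theorem isL1_coe {m : ℤ} (F : ModularForm 𝒮ℒ m) : IsL1 m (⇑F : ℍ → ℂ) where
  mdiff := F.holo'
  inv := fun g => Fermat.Agent.S23.Glue.levelOne_slash F g
  bdd := ModularFormClass.bdd_at_infty F

theorem isL1_one : IsL1 0 (1 : ℍ → ℂ) := by
  have h := isL1_coe (ModularForm.const (Γ := 𝒮ℒ) (1 : ℂ))
  have e : (⇑(ModularForm.const (Γ := 𝒮ℒ) (1 : ℂ)) : ℍ → ℂ) = 1 := by
    funext z; simp
  rwa [e] at h

theorem IsL1.mul {m n : ℤ} {E F : ℍ → ℂ} (hE : IsL1 m E) (hF : IsL1 n F) :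
    IsL1 (m + n) (E * F) where
  mdiff := hE.mdiff.mul hF.mdiff
  inv := fun g => by rw [ModularForm.mul_slash_SL2, hE.inv, hF.inv]
  bdd := hE.bdd.mul hF.bdd

theorem IsL1.const_smul {m : ℤ} {E : ℍ → ℂ} (hE : IsL1 m E) (c : ℂ) : IsL1 m (c • E) where
  mdiff := hE.mdiff.const_smul c
  inv := fun g => by rw [ModularForm.SL_smul_slash, hE.inv]
  bdd := hE.bdd.const_smul_left c

theorem IsL1.congr_weight {m m' : ℤ} {E : ℍ → ℂ} (hE : IsL1 m E) (h : m = m') : IsL1 m' E :=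
  h ▸ hE

theorem IsL1.pow {m : ℤ} {E : ℍ → ℂ} (hE : IsL1 m E) (n : ℕ) : IsL1 (n * m) (E ^ n) := by
  induction n with
  | zero => simpa using isL1_one
  | succ n ih =>
    rw [pow_succ]
    exact (ih.mul hE).congr_weight (by push_cast; ring)

theorem IsL1.isMF {m : ℤ} {E : ℍ → ℂ} (hE : IsL1 m E) (N : ℕ) : IsMF N m E where
  mdiff := hE.mdiff
  inv := fun γ _ => hE.inv γ
  bdd := fun g => by rw [hE.inv]; exact hE.bdd

theorem IsL1.smul_apply {m : ℤ} {E : ℍ → ℂ} (hE : IsL1 m E) (σ : SL(2, ℤ)) (τ : ℍ) :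
    E (σ • τ) = denom σ τ ^ m * E τ := by
  rw [smul_apply_of_slash m E σ τ, hE.inv]

theorem isL1_E₄ : IsL1 4 (⇑E₄ : ℍ → ℂ) := isL1_coe E₄

theorem isL1_E₆ : IsL1 6 (⇑E₆ : ℍ → ℂ) := isL1_coe E₆

theorem isL1_disc : IsL1 12 (fun z : ℍ => ModularForm.discriminant z) := by
  refine ⟨ModularFormClass.holo CuspForm.discriminant, fun g => ?_, ?_⟩
  · exact CuspForm.discriminant.slash_action_eq' _ ⟨g, rfl⟩
  · exact (CuspFormClass.zero_at_infty CuspForm.discriminant).isBoundedAtImInfty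

/-- `IsL1` functions are exactly the coercions of level-one modular forms. -/
theorem IsL1.exists_modularForm {m : ℤ} {E : ℍ → ℂ} (hE : IsL1 m E) :
    ∃ G : ModularForm 𝒮ℒ m, (⇑G : ℍ → ℂ) = E := by
  refine ⟨{ toFun := E
            slash_action_eq' := ?_
            holo' := hE.mdiff
            bdd_at_cusps' := ?_ }, rfl⟩
  · rintro γ ⟨γ', rfl⟩
    exact hE.inv γ'
  · intro c hc
    rw [OnePoint.isBoundedAt_iff_forall_SL2Z (isCusp_SL2Z_iff'.mp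
      ((Subgroup.IsArithmetic.isCusp_iff_isCusp_SL2Z _).mp hc) |> fun h => isCusp_SL2Z_iff'.mpr h)]
    intro γ _
    rw [hE.inv]
    exact hE.bdd

/-- A level-one form of negative weight vanishes. -/
theorem IsL1.eq_zero_of_neg {m : ℤ} {E : ℍ → ℂ} (hE : IsL1 m E) (hm : m < 0) : E = 0 := by
  obtain ⟨G, rfl⟩ := hE.exists_modularForm
  exact ModularFormClass.levelOne_neg_weight_eq_zero hm G

/-! ### The matrix of a family -/

theorem Mat_smul {N : ℕ} {k : X0 N → ℤ} {f : X0 N → ℍ → ℂ}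
    (hf : ∀ i, ∀ γ ∈ Gamma0 N, f i ∣[k i] γ = f i) (σ : SL(2, ℤ)) (τ : ℍ) (i x : X0 N) :
    Mat N k f (σ • τ) i x = denom σ τ ^ k i * Mat N k f τ i (σ⁻¹ • x) := by
  rw [Mat_apply, Mat_apply, conjK_smul_apply (hf i)]

theorem mdiff_det {N : ℕ} [NeZero N] {k : X0 N → ℤ} {f : X0 N → ℍ → ℂ}
    (hf : ∀ i, IsMF N (k i) (f i)) : MDiff (fun τ : ℍ => (Mat N k f τ).det) := by
  have e : (fun τ : ℍ => (Mat N k f τ).det) =
      ∑ σ : Equiv.Perm (X0 N), (fun τ : ℍ => (Equiv.Perm.sign σ : ℂ) *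
        ∏ i, conjK N (k (σ i)) (f (σ i)) i τ) := by
    funext τ
    rw [Matrix.det_apply', Finset.sum_apply]
    rfl
  rw [e]
  refine MDifferentiable.sum (fun σ _ => ?_)
  refine MDifferentiable.mul mdifferentiable_const ?_
  have e2 : (fun τ : ℍ => ∏ i, conjK N (k (σ i)) (f (σ i)) i τ) =
      ∏ i, conjK N (k (σ i)) (f (σ i)) i := by
    funext τ
    rw [Finset.prod_apply]
  rw [e2]
  exact MDifferentiable.prod (fun i _ => (hf (σ i)).conjK_mdiff i)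

theorem prod_zpow_eq {ι : Type*} {a : ℂ} (ha : a ≠ 0) (s : Finset ι) (k : ι → ℤ) :
    ∏ i ∈ s, a ^ k i = a ^ ∑ i ∈ s, k i := by
  classical
  induction s using Finset.induction_on with
  | empty => simp
  | insert b s hb ih => rw [Finset.prod_insert hb, Finset.sum_insert hb, zpow_add₀ ha, ih]

theorem boundedAtFilter_sum {ι : Type*} (s : Finset ι) {f : ι → ℍ → ℂ}
    (h : ∀ i ∈ s, IsBoundedAtImInfty (f i)) : IsBoundedAtImInfty (∑ i ∈ s, f i) := by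
  classical
  induction s using Finset.induction_on with
  | empty =>
    simp only [Finset.sum_empty]
    exact zero_form_isBoundedAtImInfty
  | insert b s hb ih =>
    rw [Finset.sum_insert hb]
    exact (h b (Finset.mem_insert_self b s)).add (ih fun i hi => h i (Finset.mem_insert_of_mem hi))

/-- Transformation of the determinant under `SL(2,ℤ)`. -/
theorem det_smul {N : ℕ} [NeZero N] {k : X0 N → ℤ} {f : X0 N → ℍ → ℂ}
    (hf : ∀ i, ∀ γ ∈ Gamma0 N, f i ∣[k i] γ = f i) (σ : SL(2, ℤ)) (τ : ℍ) :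
    (Mat N k f (σ • τ)).det =
      (∏ i, denom σ τ ^ k i) *
        (((Equiv.Perm.sign (MulAction.toPerm σ⁻¹ : Equiv.Perm (X0 N)) : ℤˣ) : ℤ) : ℂ) *
          (Mat N k f τ).det := by
  have e : Mat N k f (σ • τ) = Matrix.of fun i x => denom σ τ ^ k i *
      ((Mat N k f τ).submatrix id (MulAction.toPerm σ⁻¹ : Equiv.Perm (X0 N))) i x := by
    ext i x
    rw [Mat_smul hf]
    rfl
  rw [e, Matrix.det_mul_column, Matrix.det_permute']
  ring

theorem det_smul_ne_zero_iff {N : ℕ} [NeZero N] {k : X0 N → ℤ} {f : X0 N → ℍ → ℂ}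
    (hf : ∀ i, ∀ γ ∈ Gamma0 N, f i ∣[k i] γ = f i) (σ : SL(2, ℤ)) (τ : ℍ) :
    (Mat N k f (σ • τ)).det ≠ 0 ↔ (Mat N k f τ).det ≠ 0 := by
  rw [det_smul hf]
  have h1 : (∏ i : X0 N, denom σ τ ^ k i) ≠ 0 :=
    Finset.prod_ne_zero_iff.mpr fun i _ => zpow_ne_zero _ (denom_ne_zero' σ τ)
  have h2 : ((((Equiv.Perm.sign (MulAction.toPerm σ⁻¹ : Equiv.Perm (X0 N)) : ℤˣ) : ℤ) : ℂ)) ≠ 0 := by
    rcases Int.units_eq_one_or (Equiv.Perm.sign (MulAction.toPerm σ⁻¹ : Equiv.Perm (X0 N))) with h | h <;>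
      simp [h]
  constructor
  · intro h h0
    apply h
    rw [h0, mul_zero]
  · intro h
    exact mul_ne_zero (mul_ne_zero h1 h2) h

theorem det_sq_smul {N : ℕ} [NeZero N] {k : X0 N → ℤ} {f : X0 N → ℍ → ℂ}
    (hf : ∀ i, ∀ γ ∈ Gamma0 N, f i ∣[k i] γ = f i) (σ : SL(2, ℤ)) (τ : ℍ) :
    (Mat N k f (σ • τ)).det ^ 2 = denom σ τ ^ (2 * ∑ i, k i) * (Mat N k f τ).det ^ 2 := by
  rw [det_smul hf]
  have h2 : ((((Equiv.Perm.sign (MulAction.toPerm σ⁻¹ : Equiv.Perm (X0 N)) : ℤˣ) : ℤ) : ℂ)) ^ 2 = 1 := by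
    rcases Int.units_eq_one_or (Equiv.Perm.sign (MulAction.toPerm σ⁻¹ : Equiv.Perm (X0 N))) with h | h <;>
      simp [h]
  have h1 : (∏ i : X0 N, denom σ τ ^ k i) ^ 2 = denom σ τ ^ (2 * ∑ i, k i) := by
    rw [prod_zpow_eq (denom_ne_zero' σ τ) Finset.univ k, ← zpow_natCast, ← zpow_mul]
    congr 1
    push_cast
    ring
  rw [mul_pow, mul_pow, h2, h1, mul_one]

theorem isBoundedAtImInfty_det {N : ℕ} [NeZero N] {k : X0 N → ℤ} {f : X0 N → ℍ → ℂ}
    (hf : ∀ i, IsMF N (k i) (f i)) : IsBoundedAtImInfty (fun τ : ℍ => (Mat N k f τ).det) := by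
  have e : (fun τ : ℍ => (Mat N k f τ).det) =
      ∑ σ : Equiv.Perm (X0 N), (fun τ : ℍ => (Equiv.Perm.sign σ : ℂ) *
        ∏ i, conjK N (k (σ i)) (f (σ i)) i τ) := by
    funext τ
    rw [Matrix.det_apply', Finset.sum_apply]
    rfl
  rw [e]
  refine boundedAtFilter_sum _ (fun σ _ => ?_)
  have e2 : (fun τ : ℍ => (Equiv.Perm.sign σ : ℂ) * ∏ i, conjK N (k (σ i)) (f (σ i)) i τ) =
      (Equiv.Perm.sign σ : ℂ) • ∏ i, conjK N (k (σ i)) (f (σ i)) i := by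
    funext τ
    rw [Pi.smul_apply, Finset.prod_apply, smul_eq_mul]
  rw [e2]
  refine Filter.BoundedAtFilter.smul _ ?_
  exact Filter.BoundedAtFilter.prod _ (fun i _ => (hf (σ i)).conjK_bdd i)

/-! ### Frames -/

theorem IsFrame.det_fun_ne_zero {N : ℕ} [NeZero N] {k : X0 N → ℤ} {f : X0 N → ℍ → ℂ}
    (h : IsFrame N k f) : (fun τ : ℍ => (Mat N k f τ).det) ≠ 0 := by
  obtain ⟨τ, hτ⟩ := h.det_ne
  intro h0
  exact hτ (congrFun h0 τ)

theorem IsFrame.ne_zero {N : ℕ} [NeZero N] {k : X0 N → ℤ} {f : X0 N → ℍ → ℂ}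
    (h : IsFrame N k f) (i : X0 N) : f i ≠ 0 := by
  obtain ⟨τ, hτ⟩ := h.det_ne
  intro h0
  apply hτ
  apply Matrix.det_eq_zero_of_row_eq_zero i
  intro x
  rw [Mat_apply, h0, conjK_zero]
  rfl

theorem IsFrame.weight_nonneg {N : ℕ} [NeZero N] {k : X0 N → ℤ} {f : X0 N → ℍ → ℂ}
    (h : IsFrame N k f) (i : X0 N) : 0 ≤ k i := by
  by_contra hk
  exact h.ne_zero i ((h.mf i).eq_zero_of_neg (not_le.mp hk))

theorem IsFrame.weight_even {N : ℕ} [NeZero N] {k : X0 N → ℤ} {f : X0 N → ℍ → ℂ}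
    (h : IsFrame N k f) (i : X0 N) : Even (k i) :=
  (h.mf i).even_of_ne_zero (h.ne_zero i)

theorem IsFrame.sum_nonneg {N : ℕ} [NeZero N] {k : X0 N → ℤ} {f : X0 N → ℍ → ℂ}
    (h : IsFrame N k f) : 0 ≤ ∑ i, k i :=
  Finset.sum_nonneg fun i _ => h.weight_nonneg i

/-- The square of the determinant of a frame is a level-one form of weight `2 * ∑ k i`. -/
theorem IsFrame.isL1_det_sq {N : ℕ} [NeZero N] {k : X0 N → ℤ} {f : X0 N → ℍ → ℂ}
    (h : IsFrame N k f) : IsL1 (2 * ∑ i, k i) (fun τ : ℍ => (Mat N k f τ).det ^ 2) where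
  mdiff := by
    have := (mdiff_det h.mf).mul (mdiff_det h.mf)
    have e : (fun τ : ℍ => (Mat N k f τ).det ^ 2) =
        (fun τ : ℍ => (Mat N k f τ).det) * (fun τ : ℍ => (Mat N k f τ).det) := by
      funext τ; simp [sq]
    rw [e]; exact this
  inv := fun g => by
    funext τ
    rw [slash_apply', det_sq_smul (fun i => (h.mf i).inv), mul_comm, ← mul_assoc,
      ← zpow_add₀ (denom_ne_zero' g τ)]
    simp
  bdd := by
    have := (isBoundedAtImInfty_det h.mf).mul (isBoundedAtImInfty_det h.mf)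
    have e : (fun τ : ℍ => (Mat N k f τ).det ^ 2) =
        (fun τ : ℍ => (Mat N k f τ).det) * (fun τ : ℍ => (Mat N k f τ).det) := by
      funext τ; simp [sq]
    rw [e]; exact this

/-- Minimal frames exist as soon as frames exist. -/
theorem exists_minFrame_of_exists_frame {N : ℕ} [NeZero N]
    (h : ∃ (k : X0 N → ℤ) (f : X0 N → ℍ → ℂ), IsFrame N k f) :
    ∃ (k : X0 N → ℤ) (f : X0 N → ℍ → ℂ), IsMinFrame N k f := by
  classical
  let P : ℕ → Prop := fun n => ∃ (k : X0 N → ℤ) (f : X0 N → ℍ → ℂ), IsFrame N k f ∧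
    ∑ i, k i = (n : ℤ)
  have hP : ∃ n, P n := by
    obtain ⟨k, f, hkf⟩ := h
    exact ⟨(∑ i, k i).toNat, k, f, hkf, (Int.toNat_of_nonneg hkf.sum_nonneg).symm⟩
  obtain ⟨k, f, hkf, hsum⟩ := Nat.find_spec hP
  refine ⟨k, f, hkf, fun k' f' hkf' => ?_⟩
  have h' : P (∑ i, k' i).toNat := ⟨k', f', hkf', (Int.toNat_of_nonneg hkf'.sum_nonneg).symm⟩
  have := Nat.find_min' hP h'
  rw [hsum]
  have h2 := Int.toNat_of_nonneg hkf'.sum_nonneg
  omega

end Fermat.Agent.S20M
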