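import Mathlib
import Fermat.Agent.S21.PermDim

/-!
# S20M: cusp linear algebra for a finite-order permutation

`σ` is a permutation of a finite set `X` with `σ ^ N = 1`.  A `σ`-twisted family is a family
`φ : X → ℍ → ℂ` of holomorphic functions, bounded at `i∞`, with `φ x (τ + 1) = φ (σ x) τ`.
We construct the "cusp vector" `cuspVec σ N φ : X → ℂ` (limit of the `1`-periodic twist), and
prove the determinant / Cramer statements needed for the minimal-frame argument.
-/

set_option autoImplicit false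
set_option linter.unusedSectionVars false

open UpperHalfPlane hiding I
open Complex Filter Function
open scoped Topology Manifold MatrixGroups Real

namespace Fermat.Agent.S20M

namespace CuspLin

/-! ## Part 1: spectral idempotents of an element of finite order -/

section Algebra

variable {R : Type} [Ring R] [Algebra ℂ R] (N : ℕ) [NeZero N]

/-- `P ^ k` only depends on `k` modulo `N` when `P ^ N = 1`. -/
theorem pow_eq_pow_val {P : R} (hP : P ^ N = 1) (k : ℕ) : P ^ k = P ^ ((k : ZMod N).val) := by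
  rw [ZMod.val_natCast]
  exact pow_eq_pow_mod k hP

theorem pow_val_mul_pow_val {P : R} (hP : P ^ N = 1) (a b : ZMod N) :
    P ^ a.val * P ^ b.val = P ^ (a + b).val := by
  rw [← pow_add, pow_eq_pow_val N hP (a.val + b.val)]
  congr 2
  push_cast
  rw [ZMod.natCast_zmod_val, ZMod.natCast_zmod_val]

/-- The spectral idempotent of `P` for the eigenvalue `ζ_N ^ r`. -/
noncomputable def specProj (P : R) (r : ZMod N) : R :=
  (N : ℂ)⁻¹ • ∑ m : ZMod N, ZMod.stdAddChar (-(r * m)) • P ^ m.val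

theorem pow_val_mul_specProj {P : R} (hP : P ^ N = 1) (a r : ZMod N) :
    P ^ a.val * specProj N P r = ZMod.stdAddChar (r * a) • specProj N P r := by
  have inner : P ^ a.val * ∑ m : ZMod N, (ZMod.stdAddChar (-(r * m)) : ℂ) • P ^ m.val =
      (ZMod.stdAddChar (r * a) : ℂ) • ∑ m : ZMod N, (ZMod.stdAddChar (-(r * m)) : ℂ) • P ^ m.val := by
    rw [Finset.mul_sum, Finset.smul_sum]
    apply Fintype.sum_equiv (Equiv.addLeft a)
    intro m
    rw [mul_smul_comm, pow_val_mul_pow_val N hP, smul_smul, ← AddChar.map_add_eq_mul]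
    simp only [Equiv.coe_addLeft]
    congr 2
    ring
  unfold specProj
  rw [mul_smul_comm, inner, smul_comm]

theorem specProj_mul_specProj {P : R} (hP : P ^ N = 1) (r s : ZMod N) :
    specProj N P r * specProj N P s = if r = s then specProj N P s else 0 := by
  have h1 : specProj N P r * specProj N P s =
      (N : ℂ)⁻¹ • ∑ m : ZMod N, ZMod.stdAddChar (-(r * m)) • (P ^ m.val * specProj N P s) := by
    conv_lhs => rw [specProj]
    rw [smul_mul_assoc, Finset.sum_mul]
    congr 1
    refine Finset.sum_congr rfl fun m _ => ?_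
    rw [smul_mul_assoc]
  rw [h1]
  have h2 : ∀ m : ZMod N, ZMod.stdAddChar (-(r * m)) • (P ^ m.val * specProj N P s) =
      ZMod.stdAddChar (m * (s - r)) • specProj N P s := by
    intro m
    rw [pow_val_mul_specProj N hP, smul_smul, ← AddChar.map_add_eq_mul]
    congr 2
    ring
  simp only [h2]
  rw [← Finset.sum_smul, AddChar.sum_mulShift (s - r) (ZMod.isPrimitive_stdAddChar N)]
  have hN : (N : ℂ) ≠ 0 := Nat.cast_ne_zero.mpr (NeZero.ne N)
  by_cases h : r = s
  · subst h
    simp only [sub_self, if_true, ZMod.card]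
    rw [smul_smul, inv_mul_cancel₀ hN, one_smul]
  · have : s - r ≠ 0 := sub_ne_zero.mpr (Ne.symm h)
    simp only [this, h, if_false, Nat.cast_zero, zero_smul, smul_zero]

theorem sum_stdAddChar_neg_mul (m : ZMod N) :
    ∑ r : ZMod N, (ZMod.stdAddChar (-(r * m)) : ℂ) = if m = 0 then (N : ℂ) else 0 := by
  have h := AddChar.sum_mulShift (-m) (ZMod.isPrimitive_stdAddChar N)
  have e : ∀ r : ZMod N, (ZMod.stdAddChar (-(r * m)) : ℂ) = ZMod.stdAddChar (r * -m) := by
    intro r
    congr 1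
    ring
  simp only [e]
  rw [h]
  by_cases hm : m = 0
  · simp [hm]
  · simp [hm]

theorem sum_specProj (P : R) : ∑ r : ZMod N, specProj N P r = 1 := by
  unfold specProj
  rw [← Finset.smul_sum, Finset.sum_comm]
  have h2 : ∀ m : ZMod N, ∑ r : ZMod N, ZMod.stdAddChar (-(r * m)) • P ^ m.val =
      (if m = 0 then (N : ℂ) else 0) • P ^ m.val := by
    intro m
    rw [← Finset.sum_smul, sum_stdAddChar_neg_mul]
  simp only [h2]
  rw [Finset.sum_eq_single (0 : ZMod N)]
  · have hN : (N : ℂ) ≠ 0 := Nat.cast_ne_zero.mpr (NeZero.ne N)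
    simp only [if_true, ZMod.val_zero, pow_zero]
    rw [smul_smul, inv_mul_cancel₀ hN, one_smul]
  · intro m _ hm
    simp only [hm, if_false, zero_smul]
  · intro h
    exact absurd (Finset.mem_univ _) h

theorem mul_specProj {P : R} (hP : P ^ N = 1) (r : ZMod N) :
    P * specProj N P r = ZMod.stdAddChar r • specProj N P r := by
  have inner : P * ∑ m : ZMod N, (ZMod.stdAddChar (-(r * m)) : ℂ) • P ^ m.val =
      (ZMod.stdAddChar r : ℂ) • ∑ m : ZMod N, (ZMod.stdAddChar (-(r * m)) : ℂ) • P ^ m.val := by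
    rw [Finset.mul_sum, Finset.smul_sum]
    apply Fintype.sum_equiv (Equiv.addRight (1 : ZMod N))
    intro m
    rw [mul_smul_comm, smul_smul]
    have e1 : P * P ^ m.val = P ^ ((Equiv.addRight (1 : ZMod N)) m).val := by
      rw [← pow_succ', pow_eq_pow_val N hP (m.val + 1)]
      congr 2
      push_cast
      rw [ZMod.natCast_zmod_val]
      rfl
    rw [e1, ← AddChar.map_add_eq_mul]
    simp only [Equiv.coe_addRight]
    congr 2
    ring
  unfold specProj
  rw [mul_smul_comm, inner, smul_comm]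

theorem specProj_mul_comm (P : R) (r : ZMod N) : specProj N P r * P = P * specProj N P r := by
  unfold specProj
  rw [smul_mul_assoc, mul_smul_comm, Finset.sum_mul, Finset.mul_sum]
  congr 1
  refine Finset.sum_congr rfl fun m _ => ?_
  rw [smul_mul_assoc, mul_smul_comm, ← pow_succ, ← pow_succ']

/-- If `Q` is inverse to `P`, its spectral idempotents are those of `P` with `r ↦ -r`. -/
theorem specProj_of_inv {P Q : R} (hP : P ^ N = 1) (hQ : Q * P = 1) (r : ZMod N) :
    specProj N Q r = specProj N P (-r) := by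
  have hQP : ∀ k : ℕ, Q ^ k * P ^ k = 1 := by
    intro k
    induction k with
    | zero => simp
    | succ k ih =>
      rw [pow_succ, pow_succ', mul_assoc, ← mul_assoc Q P, hQ, one_mul, ih]
  have hQ' : ∀ m : ZMod N, Q ^ m.val = P ^ (-m).val := by
    intro m
    have h1 : P ^ m.val * P ^ (-m).val = 1 := by
      rw [pow_val_mul_pow_val N hP, add_neg_cancel, ZMod.val_zero, pow_zero]
    calc Q ^ m.val = Q ^ m.val * (P ^ m.val * P ^ (-m).val) := by rw [h1, mul_one]
      _ = (Q ^ m.val * P ^ m.val) * P ^ (-m).val := by rw [mul_assoc]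
      _ = P ^ (-m).val := by rw [hQP, one_mul]
  unfold specProj
  congr 1
  apply Fintype.sum_equiv (Equiv.neg (ZMod N))
  intro m
  rw [hQ']
  simp only [Equiv.neg_apply]
  congr 2
  ring

end Algebra

/-! ## Part 2: the spectral idempotent matrices of a permutation -/

section Idem

theorem det_one_add_smul_of_isIdempotentElem {V : Type} [AddCommGroup V] [Module ℂ V]
    [FiniteDimensional ℂ V] (e : V →ₗ[ℂ] V) (he : IsIdempotentElem e) (t : ℂ) :
    LinearMap.det (1 + t • e) = (1 + t) ^ Module.finrank ℂ (LinearMap.range e) := by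
  have h := LinearMap.IsIdempotentElem.isProj_range e he
  have h1 := h.eq_conj_prodMap
  have key : LinearMap.prodMap
      ((1 + t) • (LinearMap.id : LinearMap.range e →ₗ[ℂ] LinearMap.range e))
      (LinearMap.id : LinearMap.ker e →ₗ[ℂ] LinearMap.ker e) =
      LinearMap.id + t • LinearMap.prodMap
        (LinearMap.id : LinearMap.range e →ₗ[ℂ] LinearMap.range e)
        (0 : LinearMap.ker e →ₗ[ℂ] LinearMap.ker e) := by
    apply LinearMap.ext
    rintro ⟨a, b⟩
    simp [add_smul]
  have h2 : (1 + t • e) =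
      ((LinearMap.range e).prodEquivOfIsCompl (LinearMap.ker e) h.isCompl).conj
      (LinearMap.prodMap ((1 + t) • (LinearMap.id : LinearMap.range e →ₗ[ℂ] LinearMap.range e))
      (LinearMap.id : LinearMap.ker e →ₗ[ℂ] LinearMap.ker e)) := by
    rw [key, map_add, map_smul, ← h1, LinearEquiv.conj_id]
    rfl
  rw [h2, LinearEquiv.conj_apply, LinearMap.comp_assoc, LinearMap.det_conj, LinearMap.det_prodMap,
    LinearMap.det_smul, LinearMap.det_id, LinearMap.det_id, mul_one, mul_one]

end Idem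

section Mat

variable {X : Type} [Fintype X] [DecidableEq X] (σ : Equiv.Perm X) (N : ℕ) [NeZero N]

theorem permMatrix_pow (k : ℕ) : (σ.permMatrix ℂ) ^ k = (σ ^ k).permMatrix ℂ := by
  induction k with
  | zero => simp
  | succ k ih => rw [pow_succ, ih, pow_succ', Matrix.permMatrix_mul]

theorem permMatrix_pow_eq_one (hσ : σ ^ N = 1) : (σ.permMatrix ℂ) ^ N = 1 := by
  rw [permMatrix_pow, hσ, Matrix.permMatrix_one]

theorem inv_permMatrix_mul : (σ⁻¹).permMatrix ℂ * σ.permMatrix ℂ = 1 := by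
  rw [← Matrix.permMatrix_mul, mul_inv_cancel, Matrix.permMatrix_one]

/-- The spectral idempotent matrices of the permutation matrix of `σ`. -/
noncomputable def E (r : ZMod N) : Matrix X X ℂ := specProj N (σ.permMatrix ℂ) r

theorem E_mul_E (hσ : σ ^ N = 1) (r s : ZMod N) :
    E σ N r * E σ N s = if r = s then E σ N s else 0 :=
  specProj_mul_specProj N (permMatrix_pow_eq_one σ N hσ) r s

theorem sum_E : ∑ r : ZMod N, E σ N r = 1 := sum_specProj N _

theorem P_mul_E (hσ : σ ^ N = 1) (r : ZMod N) :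
    σ.permMatrix ℂ * E σ N r = (ZMod.stdAddChar r : ℂ) • E σ N r :=
  mul_specProj N (permMatrix_pow_eq_one σ N hσ) r

theorem E_mul_P (hσ : σ ^ N = 1) (r : ZMod N) :
    E σ N r * σ.permMatrix ℂ = (ZMod.stdAddChar r : ℂ) • E σ N r := by
  rw [← P_mul_E σ N hσ r]
  exact specProj_mul_comm N _ r

theorem E_transpose (hσ : σ ^ N = 1) (r : ZMod N) : (E σ N r).transpose = E σ N (-r) := by
  have h1 : (E σ N r).transpose = specProj N ((σ⁻¹).permMatrix ℂ) r := by
    unfold E specProj
    rw [Matrix.transpose_smul, Matrix.transpose_sum]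
    congr 1
    refine Finset.sum_congr rfl fun m _ => ?_
    rw [Matrix.transpose_smul, Matrix.transpose_pow, Matrix.transpose_permMatrix]
  rw [h1]
  exact specProj_of_inv N (permMatrix_pow_eq_one σ N hσ) (inv_permMatrix_mul σ) r

theorem permMatrix_pow_mulVec_of_invariant {w : X → ℂ} (hw : w ∘ σ = w) (k : ℕ) :
    ((σ.permMatrix ℂ) ^ k).mulVec w = w := by
  induction k with
  | zero => simp
  | succ k ih =>
    rw [pow_succ, ← Matrix.mulVec_mulVec, Matrix.permMatrix_mulVec, hw, ih]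

theorem range_toLin'_E_zero (hσ : σ ^ N = 1) :
    LinearMap.range (Matrix.toLin' (E σ N 0)) =
      LinearMap.ker (LinearMap.funLeft ℂ ℂ σ - 1) := by
  ext w
  rw [LinearMap.mem_range, LinearMap.mem_ker, LinearMap.sub_apply, Module.End.one_apply,
    sub_eq_zero]
  constructor
  · rintro ⟨v, rfl⟩
    rw [Matrix.toLin'_apply]
    have h1 : (LinearMap.funLeft ℂ ℂ σ) ((E σ N 0).mulVec v) = ((E σ N 0).mulVec v) ∘ σ := rfl
    rw [h1, ← Matrix.permMatrix_mulVec, Matrix.mulVec_mulVec, P_mul_E σ N hσ]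
    simp
  · intro hw
    have hw' : w ∘ σ = w := hw
    refine ⟨w, ?_⟩
    rw [Matrix.toLin'_apply]
    unfold E specProj
    rw [Matrix.smul_mulVec, Matrix.sum_mulVec]
    have h2 : ∀ m : ZMod N, ((ZMod.stdAddChar (-(0 * m)) : ℂ) • (σ.permMatrix ℂ) ^ m.val).mulVec w
        = w := by
      intro m
      rw [Matrix.smul_mulVec, permMatrix_pow_mulVec_of_invariant σ hw']
      simp
    simp only [h2]
    rw [Finset.sum_const, Finset.card_univ, ZMod.card, ← Nat.cast_smul_eq_nsmul ℂ, smul_smul,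
      inv_mul_cancel₀ (Nat.cast_ne_zero.mpr (NeZero.ne N)), one_smul]

theorem det_one_add_smul_E_zero (hσ : σ ^ N = 1) (t : ℂ) :
    (1 + t • E σ N 0).det =
      (1 + t) ^ Nat.card (MulAction.orbitRel.Quotient (Subgroup.zpowers σ) X) := by
  have hidem : IsIdempotentElem (Matrix.toLin' (E σ N 0)) := by
    unfold IsIdempotentElem
    rw [Module.End.mul_eq_comp, ← Matrix.toLin'_mul, E_mul_E σ N hσ, if_pos rfl]
  have h := det_one_add_smul_of_isIdempotentElem _ hidem t
  rw [range_toLin'_E_zero σ N hσ, Fermat.Agent.S21.PermDim.finrank_ker_funLeft_sub_one] at h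
  rw [← h, ← LinearMap.det_toLin']
  congr 1
  rw [map_add, map_smul, Matrix.toLin'_one]
  rfl

end Mat

/-! ## Part 3: the twisting matrices `A(τ)`, `B(τ)` -/

section Twist

variable {X : Type} [Fintype X] [DecidableEq X] (σ : Equiv.Perm X) (N : ℕ) [NeZero N]

/-- The scalar `exp (-2πi r τ / N)` for the representative `0 ≤ r < N`. -/
noncomputable def aCoef (r : ZMod N) (τ : ℍ) : ℂ :=
  cexp (-(2 * π * I * (r.val : ℂ) * (τ : ℂ) / N))

theorem aCoef_ne_zero (r : ZMod N) (τ : ℍ) : aCoef N r τ ≠ 0 := Complex.exp_ne_zero _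

theorem stdAddChar_eq_exp (r : ZMod N) :
    (ZMod.stdAddChar r : ℂ) = cexp (2 * π * I * (r.val : ℂ) / N) := by
  rw [ZMod.stdAddChar_apply, ZMod.toCircle_apply]

theorem aCoef_vadd (r : ZMod N) (τ : ℍ) :
    aCoef N r ((1 : ℝ) +ᵥ τ) * (ZMod.stdAddChar r : ℂ) = aCoef N r τ := by
  have hN : (N : ℂ) ≠ 0 := Nat.cast_ne_zero.mpr (NeZero.ne N)
  unfold aCoef
  rw [stdAddChar_eq_exp, ← Complex.exp_add, UpperHalfPlane.coe_vadd]
  congr 1
  push_cast
  field_simp
  ring

theorem aCoef_zero (τ : ℍ) : aCoef N (0 : ZMod N) τ = 1 := by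
  unfold aCoef
  simp

theorem aCoef_mul_neg (r : ZMod N) (hr : r ≠ 0) (τ : ℍ) :
    aCoef N r τ * aCoef N (-r) τ = (Function.Periodic.qParam 1 (τ : ℂ))⁻¹ := by
  have hN : (N : ℂ) ≠ 0 := Nat.cast_ne_zero.mpr (NeZero.ne N)
  unfold aCoef Function.Periodic.qParam
  rw [← Complex.exp_add, ← Complex.exp_neg, ZMod.neg_val, if_neg hr,
    Nat.cast_sub (le_of_lt (ZMod.val_lt r))]
  congr 1
  push_cast
  field_simp
  ring

/-- `A(τ) = ∑_r exp (-2πi r τ / N) E_r`. -/
noncomputable def Amat (τ : ℍ) : Matrix X X ℂ := ∑ r : ZMod N, aCoef N r τ • E σ N r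

/-- `B(τ) = ∑_r exp (2πi r τ / N) E_r`, the inverse of `A(τ)`. -/
noncomputable def Bmat (τ : ℍ) : Matrix X X ℂ := ∑ r : ZMod N, (aCoef N r τ)⁻¹ • E σ N r

theorem sum_smul_E_mul (hσ : σ ^ N = 1) (a b : ZMod N → ℂ) :
    (∑ r : ZMod N, a r • E σ N r) * (∑ s : ZMod N, b s • E σ N s) =
      ∑ r : ZMod N, (a r * b r) • E σ N r := by
  rw [Finset.sum_mul]
  refine Finset.sum_congr rfl fun r _ => ?_
  rw [Finset.mul_sum, Finset.sum_eq_single r]
  · rw [smul_mul_smul_comm, E_mul_E σ N hσ, if_pos rfl]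
  · intro s _ hs
    rw [smul_mul_smul_comm, E_mul_E σ N hσ, if_neg (Ne.symm hs), smul_zero]
  · intro h
    exact absurd (Finset.mem_univ _) h

theorem Bmat_mul_Amat (hσ : σ ^ N = 1) (τ : ℍ) : Bmat σ N τ * Amat σ N τ = 1 := by
  unfold Bmat Amat
  rw [sum_smul_E_mul σ N hσ]
  simp only [inv_mul_cancel₀ (aCoef_ne_zero N _ τ), one_smul]
  exact sum_E σ N

theorem Amat_mul_Bmat (hσ : σ ^ N = 1) (τ : ℍ) : Amat σ N τ * Bmat σ N τ = 1 := by
  unfold Bmat Amat
  rw [sum_smul_E_mul σ N hσ]
  simp only [mul_inv_cancel₀ (aCoef_ne_zero N _ τ), one_smul]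
  exact sum_E σ N

theorem Amat_vadd_mul (hσ : σ ^ N = 1) (τ : ℍ) :
    Amat σ N ((1 : ℝ) +ᵥ τ) * σ.permMatrix ℂ = Amat σ N τ := by
  unfold Amat
  rw [Finset.sum_mul]
  refine Finset.sum_congr rfl fun r _ => ?_
  rw [smul_mul_assoc, E_mul_P σ N hσ, smul_smul, aCoef_vadd]

theorem Amat_transpose (hσ : σ ^ N = 1) (τ : ℍ) :
    (Amat σ N τ).transpose = ∑ r : ZMod N, aCoef N (-r) τ • E σ N r := by
  unfold Amat
  rw [Matrix.transpose_sum]
  apply Fintype.sum_equiv (Equiv.neg (ZMod N))
  intro r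
  rw [Matrix.transpose_smul, E_transpose σ N hσ]
  simp

theorem Amat_mul_transpose (hσ : σ ^ N = 1) (τ : ℍ) :
    Amat σ N τ * (Amat σ N τ).transpose =
      (Function.Periodic.qParam 1 (τ : ℂ))⁻¹ •
        (1 + (Function.Periodic.qParam 1 (τ : ℂ) - 1) • E σ N 0) := by
  have hq : Function.Periodic.qParam 1 (τ : ℂ) ≠ 0 := Function.Periodic.qParam_ne_zero _
  rw [Amat_transpose σ N hσ]
  unfold Amat
  rw [sum_smul_E_mul σ N hσ]
  have h1 : ∀ r : ZMod N, (aCoef N r τ * aCoef N (-r) τ) • E σ N r =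
      (Function.Periodic.qParam 1 (τ : ℂ))⁻¹ • E σ N r +
        (if r = 0 then (1 - (Function.Periodic.qParam 1 (τ : ℂ))⁻¹) • E σ N 0 else 0) := by
    intro r
    by_cases hr : r = 0
    · subst hr
      rw [if_pos rfl, neg_zero, aCoef_zero, ← add_smul]
      congr 1
      ring
    · rw [if_neg hr, add_zero, aCoef_mul_neg N r hr]
  simp only [h1]
  rw [Finset.sum_add_distrib, ← Finset.smul_sum, sum_E, Finset.sum_ite_eq' Finset.univ (0 : ZMod N)]
  simp only [Finset.mem_univ, if_true]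
  rw [smul_add, smul_smul]
  congr 2
  field_simp

theorem card_orbits_le :
    Nat.card (MulAction.orbitRel.Quotient (Subgroup.zpowers σ) X) ≤ Fintype.card X := by
  rw [← Nat.card_eq_fintype_card]
  exact Nat.card_le_card_of_surjective _ Quotient.mk''_surjective

/-- `det A(τ)² = q ^ (c - μ)`, in multiplicative form. -/
theorem det_Amat_sq (hσ : σ ^ N = 1) (τ : ℍ) :
    (Amat σ N τ).det ^ 2 * Function.Periodic.qParam 1 (τ : ℂ) ^ Fintype.card X =
      Function.Periodic.qParam 1 (τ : ℂ) ^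
        Nat.card (MulAction.orbitRel.Quotient (Subgroup.zpowers σ) X) := by
  have hq : Function.Periodic.qParam 1 (τ : ℂ) ≠ 0 := Function.Periodic.qParam_ne_zero _
  have h1 : (Amat σ N τ).det ^ 2 = (Amat σ N τ * (Amat σ N τ).transpose).det := by
    rw [Matrix.det_mul, Matrix.det_transpose, sq]
  rw [h1, Amat_mul_transpose σ N hσ, Matrix.det_smul, det_one_add_smul_E_zero σ N hσ]
  rw [show (1 : ℂ) + (Function.Periodic.qParam 1 (τ : ℂ) - 1) = Function.Periodic.qParam 1 (τ : ℂ) by
    ring]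
  rw [mul_right_comm, inv_pow, inv_mul_cancel₀ (pow_ne_zero _ hq), one_mul]

end Twist

end CuspLin

end Fermat.Agent.S20M
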