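import Mathlib
import Fermat.Agent.S20.LevelOneBasic
import Fermat.Agent.S20.Stab
import Fermat.Agent.S20.Elliptic
import Fermat.Agent.S20.JInj
import Fermat.Agent.S20.JOrder
import Fermat.Agent.S20.Bridge
import Fermat.Agent.S23.Glue
import Fermat.Agent.S23.Analysis

/-!
# S20M: the division package

Division of modular forms on `Γ₀(N)` by the level-one forms `E₄`, `E₆`,
`H_{τ₀} = E₆(τ₀)² E₄³ - E₄(τ₀)³ E₆²` and `Δ`.

* `exists_mdiff_div` (D0): division of holomorphic functions on `ℍ` by a function with simple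
  zeros.
* `exists_div_levelOne` (D1): division of a modular form on `Γ₀(N)` by a level-one form with
  simple zeros and nonzero value at `i∞`.
* `exists_div_E₆` (D2), `exists_div_E₄` (D3), `exists_div_H` (D4), `exists_div_disc_modularForm` (D5).
* `E₆_eq_zero_iff_exists_smul`, `E₄_eq_zero_iff_exists_smul`: the zero sets of `E₆`, `E₄`.
-/

set_option autoImplicit false

open UpperHalfPlane ModularForm EisensteinSeries Filter Function CongruenceSubgroup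
open scoped MatrixGroups Manifold Topology

namespace Fermat.Agent.S20M

open Fermat.Agent.S20

local notation "Δ" => ModularForm.discriminant

/-- (D0) Division of holomorphic functions on `ℍ`: if all zeros of `H` are simple and `F`
vanishes at every zero of `H`, then `F = H * G` with `G` holomorphic. -/
theorem exists_mdiff_div {F H : ℍ → ℂ} (hF : MDiff F) (hH : MDiff H)
    (hsimple : ∀ z, H z = 0 → ordAt H z = 1) (hvan : ∀ z, H z = 0 → F z = 0) :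
    ∃ G : ℍ → ℂ, MDiff G ∧ ∀ z, F z = H z * G z := by
  have hH0 : H ≠ 0 := by
    intro h0
    have h1 := hsimple UpperHalfPlane.I (by rw [h0]; rfl)
    have h2 : ordAt H UpperHalfPlane.I = ⊤ := (ordAt_eq_top_iff hH).mpr h0
    rw [h2] at h1
    exact absurd h1 (by simp)
  have hle : ∀ z, ordAt H z ≤ ordAt F z := by
    intro z
    by_cases hz : H z = 0
    · rw [hsimple z hz]
      exact Order.one_le_iff_pos.mpr ((ordAt_pos_iff hF).mpr (hvan z hz))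
    · rw [(ordAt_eq_zero_iff hH).mpr hz]
      exact bot_le
  obtain ⟨G, hG, hGmul⟩ := Bridge.exists_mdiff_mul_eq_of_ordAt_le hF hH hH0 hle
  exact ⟨G, hG, fun z => by rw [← hGmul z, mul_comm]⟩

namespace Division

/-- slash of a product of functions whose first factor is level-one invariant. -/
theorem mul_slash_of_invariant {k m : ℤ} {H G : ℍ → ℂ} (γ : SL(2, ℤ))
    (hH : H ∣[m] γ = H) : (H * G) ∣[k] γ = H * (G ∣[k - m] γ) := by
  have h := ModularForm.mul_slash_SL2 m (k - m) γ H G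
  rw [show m + (k - m) = k by ring, hH] at h
  exact h

/-- core of the division lemmas: `H` holomorphic, level-one invariant of weight `m`, with a
nonzero limit at `i∞`, simple zeros, and `F` a modular form on `Γ₀(N)` vanishing on the zeros
of `H`. -/
theorem exists_div_core (N : ℕ) [NeZero N] {k m : ℤ} (F : ModularForm (Gamma0 N) k)
    {H : ℍ → ℂ} (hH : MDiff H) (hHinv : ∀ γ : SL(2, ℤ), H ∣[m] γ = H)
    (hsimple : ∀ z, H z = 0 → ordAt H z = 1) (hvan : ∀ z, H z = 0 → F z = 0)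
    (hlim : ∃ c : ℂ, c ≠ 0 ∧ Tendsto H atImInfty (𝓝 c)) :
    ∃ G : ModularForm (Gamma0 N) (k - m), ∀ z, F z = H z * G z := by
  obtain ⟨G, hG, hFG⟩ := exists_mdiff_div (ModularFormClass.holo F) hH hsimple hvan
  have hFG' : (⇑F : ℍ → ℂ) = H * G := funext hFG
  obtain ⟨c, hc, hHc⟩ := hlim
  have hH0 : H ≠ 0 := by
    intro h0
    rw [h0] at hHc
    have : Tendsto (fun _ : ℍ => (0 : ℂ)) atImInfty (𝓝 c) := hHc
    exact hc (tendsto_nhds_unique this tendsto_const_nhds)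
  have hslash : ∀ γ : SL(2, ℤ), (⇑F : ℍ → ℂ) ∣[k] γ = H * (G ∣[k - m] γ) := by
    intro γ
    rw [hFG']
    exact mul_slash_of_invariant γ (hHinv γ)
  have hGs : ∀ γ : SL(2, ℤ), MDiff (G ∣[k - m] γ) := fun γ => hG.slash _ _
  have hinv : ∀ γ ∈ Gamma0 N, G ∣[k - m] γ = G := by
    intro γ hγ
    have h1 := hslash γ
    rw [Fermat.Agent.S23.Glue.modularForm_slash_Gamma0 N F γ hγ, hFG'] at h1
    refine (Fermat.Agent.S23.mdiff_mul_right_cancel hG (hGs γ) hH hH0 ?_).symm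
    rw [mul_comm G H, mul_comm _ H]
    exact h1
  have hbdd : ∀ γ : SL(2, ℤ), IsBoundedAtImInfty (G ∣[k - m] γ) := by
    intro γ
    have hb := Fermat.Agent.S23.Glue.modularForm_slash_isBoundedAtImInfty N F γ
    rw [hslash γ] at hb
    rw [UpperHalfPlane.isBoundedAtImInfty_iff] at hb ⊢
    obtain ⟨M, A, hMA⟩ := hb
    have hcpos : 0 < ‖c‖ / 2 := by positivity
    have hev : ∀ᶠ z in atImInfty, ‖c‖ / 2 < ‖H z‖ := by
      have := (hHc.norm).eventually (lt_mem_nhds (show ‖c‖ / 2 < ‖c‖ by linarith [norm_pos_iff.mpr hc]))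
      exact this
    obtain ⟨A', hA'⟩ := (UpperHalfPlane.atImInfty_mem _).mp hev
    refine ⟨M / (‖c‖ / 2), max A A', fun z hz => ?_⟩
    have h1 := hMA z (le_trans (le_max_left _ _) hz)
    have h2 : ‖c‖ / 2 < ‖H z‖ := hA' z (le_trans (le_max_right _ _) hz)
    rw [Pi.mul_apply, norm_mul] at h1
    rw [le_div_iff₀ hcpos]
    have h3 : 0 ≤ ‖(G ∣[k - m] γ) z‖ := norm_nonneg _
    nlinarith
  obtain ⟨G', hG'⟩ := Fermat.Agent.S23.Glue.exists_modularForm_of_mdiff N (k - m) G hG hinv hbdd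
  exact ⟨G', fun z => by rw [hG']; exact hFG z⟩

end Division

/-- the zeros of `E₆` are exactly the `SL(2,ℤ)`-orbit of `i`. -/
theorem E₆_eq_zero_iff_exists_smul (z : ℍ) :
    E₆ z = 0 ↔ ∃ γ : SL(2, ℤ), γ • UpperHalfPlane.I = z := by
  rw [← jFun_eq_1728_iff z, ← jFun_eq_iff UpperHalfPlane.I z, jFun_I]
  exact eq_comm

/-- the zeros of `E₄` are exactly the `SL(2,ℤ)`-orbit of `ρ`. -/
theorem E₄_eq_zero_iff_exists_smul (z : ℍ) :
    E₄ z = 0 ↔ ∃ γ : SL(2, ℤ), γ • rho = z := by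
  rw [E₄_eq_zero_iff z, ← jFun_eq_iff rho z, jFun_rho]
  exact eq_comm

namespace Division

theorem tendsto_E₆ : Tendsto (fun z : ℍ => E₆ z) atImInfty (𝓝 1) := by
  have han := ModularFormClass.analyticAt_cuspFunction_zero E₆ one_pos one_mem_strictPeriods_SL
  have hc : ContinuousAt (cuspFunction 1 ⇑E₆) 0 := han.continuousAt
  have h0 : cuspFunction 1 ⇑E₆ 0 = 1 := by
    have := E_qExpansion_coeff_zero (k := 6) (by norm_num) ⟨3, rfl⟩
    rw [qExpansion_coeff] at this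
    simpa using this
  have ht := hc.tendsto.comp (qParam_tendsto_atImInfty (h := 1) one_pos)
  rw [h0] at ht
  refine ht.congr fun z => ?_
  exact SlashInvariantFormClass.eq_cuspFunction E₆ z one_mem_strictPeriods_SL one_ne_zero

/-- the weight-12 level-one form vanishing exactly (and simply) on the orbit of `τ₀`. -/
noncomputable def Hfun (τ₀ : ℍ) : ℍ → ℂ :=
  fun z => E₆ τ₀ ^ 2 * E₄ z ^ 3 - E₄ τ₀ ^ 3 * E₆ z ^ 2

theorem Hfun_apply (τ₀ z : ℍ) : Hfun τ₀ z = E₆ τ₀ ^ 2 * E₄ z ^ 3 - E₄ τ₀ ^ 3 * E₆ z ^ 2 := rfl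

theorem E₆_sq_eq (z : ℍ) : E₆ z ^ 2 = (jFun z - 1728) * Δ z := by
  rw [jFun_sub_1728, div_mul_cancel₀ _ (discriminant_ne_zero z)]

theorem Hfun_eq (τ₀ z : ℍ) :
    Hfun τ₀ z = (-1728 * Δ τ₀) * (Δ z * (jFun z - jFun τ₀)) := by
  rw [Hfun_apply, ← jFun_mul_disc z, ← jFun_mul_disc τ₀, E₆_sq_eq z, E₆_sq_eq τ₀]
  ring

theorem mdiff_Hfun (τ₀ : ℍ) : MDiff (Hfun τ₀) := by
  have h4 : MDiff (⇑E₄) := ModularFormClass.holo E₄
  have h6 : MDiff (⇑E₆) := ModularFormClass.holo E₆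
  have h1 : MDiff (fun z : ℍ => E₆ τ₀ ^ 2 * E₄ z ^ 3) := mdifferentiable_const.mul (h4.pow 3)
  have h2 : MDiff (fun z : ℍ => E₄ τ₀ ^ 3 * E₆ z ^ 2) := mdifferentiable_const.mul (h6.pow 2)
  exact h1.sub h2

theorem Hfun_smul (τ₀ : ℍ) (γ : SL(2, ℤ)) (z : ℍ) :
    Hfun τ₀ (γ • z) = denom γ z ^ 12 * Hfun τ₀ z := by
  rw [Hfun_apply, Hfun_apply, JOrder.E₄_smul', JOrder.E₆_smul']
  ring

theorem Hfun_slash (τ₀ : ℍ) (γ : SL(2, ℤ)) : Hfun τ₀ ∣[(12 : ℤ)] γ = Hfun τ₀ := by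
  funext z
  rw [ModularForm.SL_slash_apply, Hfun_smul, zpow_neg]
  have hd : denom γ z ^ 12 ≠ 0 := pow_ne_zero _ (denom_ne_zero _ _)
  have e : denom γ z ^ (12 : ℤ) = denom γ z ^ 12 := by norm_cast
  rw [e]
  field_simp

theorem Hfun_eq_zero_iff (τ₀ z : ℍ) : Hfun τ₀ z = 0 ↔ ∃ γ : SL(2, ℤ), γ • τ₀ = z := by
  rw [← jFun_eq_iff τ₀ z, Hfun_eq]
  have h1 : (-1728 * Δ τ₀) ≠ 0 := mul_ne_zero (by norm_num) (discriminant_ne_zero τ₀)
  have h2 := discriminant_ne_zero z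
  constructor
  · intro h
    rcases mul_eq_zero.mp h with h | h
    · exact absurd h h1
    · rcases mul_eq_zero.mp h with h | h
      · exact absurd h h2
      · exact (sub_eq_zero.mp h).symm
  · intro h
    rw [h, sub_self, mul_zero, mul_zero]

theorem ordAt_Hfun (τ₀ : ℍ) (h4 : E₄ τ₀ ≠ 0) (h6 : E₆ τ₀ ≠ 0) (z : ℍ) (hz : Hfun τ₀ z = 0) :
    ordAt (Hfun τ₀) z = 1 := by
  obtain ⟨γ, rfl⟩ := (Hfun_eq_zero_iff τ₀ z).mp hz
  have hd : denom γ τ₀ ≠ 0 := denom_ne_zero _ _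
  have h4z : E₄ (γ • τ₀) ≠ 0 := by
    rw [JOrder.E₄_smul']; exact mul_ne_zero (pow_ne_zero _ hd) h4
  have h6z : E₆ (γ • τ₀) ≠ 0 := by
    rw [JOrder.E₆_smul']; exact mul_ne_zero (pow_ne_zero _ hd) h6
  have h1 := ordAt_jFun_sub_of_ne (γ • τ₀) h4z h6z
  rw [jFun_smul] at h1
  have hc : (-1728 * Δ τ₀) ≠ 0 := mul_ne_zero (by norm_num) (discriminant_ne_zero τ₀)
  have hj : MDiff (fun w : ℍ => jFun w - jFun τ₀) := mdiff_jFun.sub mdifferentiable_const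
  have hΔ : MDiff (fun w : ℍ => Δ w) := JOrder.mdiff_disc
  have e : Hfun τ₀ = (fun _ : ℍ => (-1728 * Δ τ₀)) *
      ((fun w : ℍ => Δ w) * (fun w : ℍ => jFun w - jFun τ₀)) := by
    funext w
    simp only [Pi.mul_apply]
    exact Hfun_eq τ₀ w
  rw [e, ordAt_mul mdifferentiable_const (hΔ.mul hj), ordAt_mul hΔ hj, ordAt_const hc, h1,
    (ordAt_eq_zero_iff hΔ).mpr (discriminant_ne_zero _)]
  simp

theorem tendsto_Hfun (τ₀ : ℍ) :
    Tendsto (Hfun τ₀) atImInfty (𝓝 (E₆ τ₀ ^ 2 - E₄ τ₀ ^ 3)) := by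
  have h1 : Tendsto (fun z : ℍ => E₆ τ₀ ^ 2 * E₄ z ^ 3 - E₄ τ₀ ^ 3 * E₆ z ^ 2) atImInfty
      (𝓝 (E₆ τ₀ ^ 2 * 1 ^ 3 - E₄ τ₀ ^ 3 * 1 ^ 2)) :=
    ((JOrder.tendsto_E₄.pow 3).const_mul _).sub ((tendsto_E₆.pow 2).const_mul _)
  have h2 : (fun z : ℍ => E₆ τ₀ ^ 2 * E₄ z ^ 3 - E₄ τ₀ ^ 3 * E₆ z ^ 2) = Hfun τ₀ := rfl
  rw [h2] at h1
  simpa using h1

theorem Hfun_lim_ne_zero (τ₀ : ℍ) : E₆ τ₀ ^ 2 - E₄ τ₀ ^ 3 ≠ 0 := by
  have h := discriminant_eq_E₄_cube_sub_E₆_sq τ₀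
  have hΔ := discriminant_ne_zero τ₀
  intro h0
  apply hΔ
  rw [h]
  have : E₄ τ₀ ^ 3 - E₆ τ₀ ^ 2 = 0 := by linear_combination -h0
  rw [this]
  simp

end Division

/-- (D1) Division of a modular form on `Γ₀(N)` by a level-one modular form `H` with simple
zeros and a nonzero limit at `i∞`. -/
theorem exists_div_levelOne (N : ℕ) [NeZero N] {k m : ℤ} (F : ModularForm (Gamma0 N) k)
    (H : ModularForm 𝒮ℒ m) (hsimple : ∀ z, H z = 0 → ordAt (⇑H) z = 1)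
    (hvan : ∀ z, H z = 0 → F z = 0)
    (hlim : ∃ c : ℂ, c ≠ 0 ∧ Tendsto (fun z : ℍ => H z) atImInfty (𝓝 c)) :
    ∃ G : ModularForm (Gamma0 N) (k - m), ∀ z, F z = H z * G z :=
  Division.exists_div_core N F (ModularFormClass.holo H) (fun γ => JOrder.slash_eq H γ)
    hsimple hvan hlim

/-- (D2) A modular form on `Γ₀(N)` vanishing on the `SL(2,ℤ)`-orbit of `i` is divisible by
`E₆`. -/
theorem exists_div_E₆ (N : ℕ) [NeZero N] {k : ℤ} (F : ModularForm (Gamma0 N) k)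
    (hvan : ∀ γ : SL(2, ℤ), F (γ • UpperHalfPlane.I) = 0) :
    ∃ G : ModularForm (Gamma0 N) (k - 6), ∀ z, F z = E₆ z * G z :=
  exists_div_levelOne N F E₆ (fun z hz => ordAt_E₆ z hz)
    (fun z hz => by
      obtain ⟨γ, rfl⟩ := (E₆_eq_zero_iff_exists_smul z).mp hz
      exact hvan γ)
    ⟨1, one_ne_zero, Division.tendsto_E₆⟩

/-- (D3) A modular form on `Γ₀(N)` vanishing on the `SL(2,ℤ)`-orbit of `ρ` is divisible by
`E₄`. -/
theorem exists_div_E₄ (N : ℕ) [NeZero N] {k : ℤ} (F : ModularForm (Gamma0 N) k)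
    (hvan : ∀ γ : SL(2, ℤ), F (γ • rho) = 0) :
    ∃ G : ModularForm (Gamma0 N) (k - 4), ∀ z, F z = E₄ z * G z :=
  exists_div_levelOne N F E₄ (fun z hz => ordAt_E₄ z hz)
    (fun z hz => by
      obtain ⟨γ, rfl⟩ := (E₄_eq_zero_iff_exists_smul z).mp hz
      exact hvan γ)
    ⟨1, one_ne_zero, JOrder.tendsto_E₄⟩

/-- (D4) A modular form on `Γ₀(N)` vanishing on the `SL(2,ℤ)`-orbit of a non-elliptic point
`τ₀` is divisible by `H_{τ₀} = E₆(τ₀)² E₄³ - E₄(τ₀)³ E₆²` (weight `12`). -/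
theorem exists_div_H (N : ℕ) [NeZero N] {k : ℤ} (F : ModularForm (Gamma0 N) k) (τ₀ : ℍ)
    (h4 : E₄ τ₀ ≠ 0) (h6 : E₆ τ₀ ≠ 0) (hvan : ∀ γ : SL(2, ℤ), F (γ • τ₀) = 0) :
    ∃ G : ModularForm (Gamma0 N) (k - 12),
      ∀ z, F z = (E₆ τ₀ ^ 2 * E₄ z ^ 3 - E₄ τ₀ ^ 3 * E₆ z ^ 2) * G z :=
  Division.exists_div_core N F (Division.mdiff_Hfun τ₀) (Division.Hfun_slash τ₀)
    (Division.ordAt_Hfun τ₀ h4 h6)
    (fun z hz => by
      obtain ⟨γ, rfl⟩ := (Division.Hfun_eq_zero_iff τ₀ z).mp hz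
      exact hvan γ)
    ⟨_, Division.Hfun_lim_ne_zero τ₀, Division.tendsto_Hfun τ₀⟩

/-- (D5) A modular form on `Γ₀(N)` all of whose `SL(2,ℤ)`-translates are `O(Δ)` at `i∞` is
divisible by `Δ`. -/
theorem exists_div_disc_modularForm (N : ℕ) [NeZero N] {k : ℤ} (F : ModularForm (Gamma0 N) k)
    (hb : ∀ γ : SL(2, ℤ), IsBoundedAtImInfty (fun z : ℍ => ((⇑F : ℍ → ℂ) ∣[k] γ) z / Δ z)) :
    ∃ G : ModularForm (Gamma0 N) (k - 12), ∀ z, F z = Δ z * G z := by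
  set G : ℍ → ℂ := fun z => F z / Δ z with hGdef
  have hΔ : MDiff (fun w : ℍ => Δ w) := JOrder.mdiff_disc
  have hG : MDiff G := (ModularFormClass.holo F).div hΔ discriminant_ne_zero
  have hFG : (⇑F : ℍ → ℂ) = (fun w : ℍ => Δ w) * G := by
    funext z
    simp only [Pi.mul_apply, hGdef]
    rw [mul_div_cancel₀ _ (discriminant_ne_zero z)]
  have hΔinv : ∀ γ : SL(2, ℤ), (fun w : ℍ => Δ w) ∣[(12 : ℤ)] γ = (fun w : ℍ => Δ w) :=
    fun γ => CuspForm.discriminant.slash_action_eq' _ ⟨γ, rfl⟩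
  have hslash : ∀ γ : SL(2, ℤ), (⇑F : ℍ → ℂ) ∣[k] γ = (fun w : ℍ => Δ w) * (G ∣[k - 12] γ) := by
    intro γ
    conv_lhs => rw [hFG]
    exact Division.mul_slash_of_invariant γ (hΔinv γ)
  have hGslash : ∀ γ : SL(2, ℤ), G ∣[k - 12] γ = fun z : ℍ => ((⇑F : ℍ → ℂ) ∣[k] γ) z / Δ z := by
    intro γ
    funext z
    rw [hslash γ, Pi.mul_apply, mul_div_cancel_left₀ _ (discriminant_ne_zero z)]
  have hinv : ∀ γ ∈ Gamma0 N, G ∣[k - 12] γ = G := by
    intro γ hγ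
    rw [hGslash γ, Fermat.Agent.S23.Glue.modularForm_slash_Gamma0 N F γ hγ]
  have hbdd : ∀ γ : SL(2, ℤ), IsBoundedAtImInfty (G ∣[k - 12] γ) := by
    intro γ
    rw [hGslash γ]
    exact hb γ
  obtain ⟨G', hG'⟩ := Fermat.Agent.S23.Glue.exists_modularForm_of_mdiff N (k - 12) G hG hinv hbdd
  exact ⟨G', fun z => by rw [hG']; exact congrFun hFG z⟩

end Fermat.Agent.S20M
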