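import Mathlib
import Fermat.Agent.S20M.Basic
import Fermat.Agent.S20M.Division
import Fermat.Agent.S20.LevelOneBasic
import Fermat.Agent.S20.Stab

/-!
# S20M P3: division of forms by level-one forms (stub-verbatim statements of findings 34)

Thin layer over `Fermat.Agent.S20M.Division` in the function-level language `IsMF` / `IsL1` of
`Fermat.Agent.S20M.Basic`.
-/

set_option autoImplicit false

open UpperHalfPlane hiding I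
open Complex Filter Function
open scoped Manifold MatrixGroups ModularForm Topology
open ModularForm EisensteinSeries

namespace Fermat.Agent.S20M

open Fermat.Agent.S20 (X0 ordAt jFun rho)
open CongruenceSubgroup

namespace Div

/-- a function with a limit at `i∞` is bounded at `i∞`. -/
theorem isBoundedAtImInfty_of_tendsto {H : ℍ → ℂ} {c : ℂ} (h : Tendsto H atImInfty (𝓝 c)) :
    IsBoundedAtImInfty H :=
  h.isBigO_one ℝ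

/-- a form vanishing at all conjugates at `τ₀` vanishes on the orbit of `τ₀`. -/
theorem apply_smul_eq_zero {N : ℕ} {K₀ : ℤ} {F : ℍ → ℂ} (hF : ∀ γ ∈ Gamma0 N, F ∣[K₀] γ = F)
    (τ₀ : ℍ) (hF0 : ∀ x : X0 N, conjK N K₀ F x τ₀ = 0) (σ : SL(2, ℤ)) : F (σ • τ₀) = 0 := by
  have h := conjK_smul_apply hF ((1 : SL(2, ℤ)) : X0 N) σ τ₀
  rw [conjK_one hF, hF0, mul_zero] at h
  exact h

end Div

/-- Division by a level-one form `H` with simple zeros exactly on `SL(2,ℤ) • τ₀` and a nonzero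
limit at `i∞`. -/
theorem exists_div_of_orbit (N : ℕ) [NeZero N] {K₀ h : ℤ} {F H : ℍ → ℂ} (hF : IsMF N K₀ F)
    (hH : IsL1 h H) (τ₀ : ℍ) (hz : ∀ z, H z = 0 → ∃ σ : SL(2, ℤ), σ • τ₀ = z)
    (hord : ∀ z, H z = 0 → ordAt H z = 1)
    (hlim : ∃ c : ℂ, c ≠ 0 ∧ Tendsto H atImInfty (𝓝 c))
    (hF0 : ∀ x : X0 N, conjK N K₀ F x τ₀ = 0) :
    ∃ g, IsMF N (K₀ - h) g ∧ ∀ z, g z * H z = F z := by
  obtain ⟨F', hF'⟩ := hF.exists_modularForm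
  have hvan : ∀ z, H z = 0 → F' z = 0 := by
    intro z hHz
    obtain ⟨σ, rfl⟩ := hz z hHz
    rw [hF']
    exact Div.apply_smul_eq_zero hF.inv τ₀ hF0 σ
  obtain ⟨G, hG⟩ := Division.exists_div_core N F' hH.mdiff hH.inv hord hvan hlim
  refine ⟨⇑G, isMF_coe N G, fun z => ?_⟩
  rw [mul_comm, ← hG z, hF']

/-- The generic divisor `E₆(τ₀)² E₄³ - E₄(τ₀)³ E₆²`. -/
noncomputable def Hgen (τ₀ : ℍ) : ℍ → ℂ := fun z => E₆ τ₀ ^ 2 * E₄ z ^ 3 - E₄ τ₀ ^ 3 * E₆ z ^ 2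

namespace Div

theorem Hgen_eq_Hfun (τ₀ : ℍ) : Hgen τ₀ = Division.Hfun τ₀ := rfl

end Div

theorem isL1_Hgen (τ₀ : ℍ) : IsL1 12 (Hgen τ₀) where
  mdiff := Division.mdiff_Hfun τ₀
  inv := Division.Hfun_slash τ₀
  bdd := Div.isBoundedAtImInfty_of_tendsto (Division.tendsto_Hfun τ₀)

theorem Hgen_zero (τ₀ : ℍ) (h4 : E₄ τ₀ ≠ 0) (h6 : E₆ τ₀ ≠ 0) (z : ℍ) (hz : Hgen τ₀ z = 0) :
    (∃ σ : SL(2, ℤ), σ • τ₀ = z) ∧ ordAt (Hgen τ₀) z = 1 :=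
  ⟨(Division.Hfun_eq_zero_iff τ₀ z).mp hz, Division.ordAt_Hfun τ₀ h4 h6 z hz⟩

theorem Hgen_tendsto (τ₀ : ℍ) :
    ∃ c : ℂ, c ≠ 0 ∧ Tendsto (Hgen τ₀) atImInfty (𝓝 c) :=
  ⟨_, Division.Hfun_lim_ne_zero τ₀, Division.tendsto_Hfun τ₀⟩

theorem Hgen_ne_zero (τ₀ : ℍ) : Hgen τ₀ ≠ 0 := by
  intro h0
  have h1 := Division.tendsto_Hfun τ₀
  rw [← Div.Hgen_eq_Hfun, h0] at h1
  have h2 : Tendsto (fun _ : ℍ => (0 : ℂ)) atImInfty (𝓝 (E₆ τ₀ ^ 2 - E₄ τ₀ ^ 3)) := h1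
  exact Division.Hfun_lim_ne_zero τ₀ (tendsto_nhds_unique h2 tendsto_const_nhds)

theorem E₆_zero (z : ℍ) (hz : E₆ z = 0) :
    (∃ σ : SL(2, ℤ), σ • UpperHalfPlane.I = z) ∧ ordAt (⇑E₆) z = 1 :=
  ⟨(E₆_eq_zero_iff_exists_smul z).mp hz, Fermat.Agent.S20.ordAt_E₆ z hz⟩

theorem E₄_zero (z : ℍ) (hz : E₄ z = 0) :
    (∃ σ : SL(2, ℤ), σ • rho = z) ∧ ordAt (⇑E₄) z = 1 :=
  ⟨(E₄_eq_zero_iff_exists_smul z).mp hz, Fermat.Agent.S20.ordAt_E₄ z hz⟩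

theorem E₄_tendsto : ∃ c : ℂ, c ≠ 0 ∧ Tendsto (⇑E₄ : ℍ → ℂ) atImInfty (𝓝 c) :=
  ⟨1, one_ne_zero, Fermat.Agent.S20.JOrder.tendsto_E₄⟩

theorem E₆_tendsto : ∃ c : ℂ, c ≠ 0 ∧ Tendsto (⇑E₆ : ℍ → ℂ) atImInfty (𝓝 c) :=
  ⟨1, one_ne_zero, Division.tendsto_E₆⟩

/-- Division by `Δ` of a form all of whose conjugates are `O(Δ)` at `i∞`. -/
theorem exists_div_disc (N : ℕ) [NeZero N] {K₀ : ℤ} {F : ℍ → ℂ} (hF : IsMF N K₀ F)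
    (hF0 : ∀ x : X0 N, IsBoundedAtImInfty (fun τ => conjK N K₀ F x τ / ModularForm.discriminant τ)) :
    ∃ g, IsMF N (K₀ - 12) g ∧ ∀ z, g z * ModularForm.discriminant z = F z := by
  obtain ⟨F', hF'⟩ := hF.exists_modularForm
  have hb : ∀ γ : SL(2, ℤ), IsBoundedAtImInfty
      (fun z : ℍ => ((⇑F' : ℍ → ℂ) ∣[K₀] γ) z / ModularForm.discriminant z) := by
    intro γ
    have h := hF0 ((γ⁻¹ : SL(2, ℤ)) : X0 N)
    rw [conjK_mk hF.inv, inv_inv] at h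
    rw [hF']
    exact h
  obtain ⟨G, hG⟩ := exists_div_disc_modularForm N F' hb
  refine ⟨⇑G, isMF_coe N G, fun z => ?_⟩
  rw [mul_comm, ← hG z, hF']

namespace Div

/-- normalized monomials in `E₄`, `E₆`. -/
theorem exists_isL1_monomial (τ₀ : ℍ) (a b : ℕ) (h4 : a ≠ 0 → E₄ τ₀ ≠ 0)
    (h6 : b ≠ 0 → E₆ τ₀ ≠ 0) :
    ∃ E, IsL1 ((a : ℤ) * 4 + (b : ℤ) * 6) E ∧ E τ₀ = 1 := by
  refine ⟨((E₄ τ₀)⁻¹ • (⇑E₄ : ℍ → ℂ)) ^ a * ((E₆ τ₀)⁻¹ • (⇑E₆ : ℍ → ℂ)) ^ b,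
    ((isL1_E₄.const_smul _).pow a).mul ((isL1_E₆.const_smul _).pow b), ?_⟩
  simp only [Pi.mul_apply, Pi.pow_apply, Pi.smul_apply, smul_eq_mul]
  have e4 : ((E₄ τ₀)⁻¹ * E₄ τ₀) ^ a = 1 := by
    rcases Nat.eq_zero_or_pos a with rfl | ha
    · simp
    · rw [inv_mul_cancel₀ (h4 ha.ne'), one_pow]
  have e6 : ((E₆ τ₀)⁻¹ * E₆ τ₀) ^ b = 1 := by
    rcases Nat.eq_zero_or_pos b with rfl | hb
    · simp
    · rw [inv_mul_cancel₀ (h6 hb.ne'), one_pow]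
  rw [e4, e6, one_mul]

/-- monomials in `E₄`, `E₆` tend to `1` at `i∞`. -/
theorem exists_isL1_monomial_inf (a b : ℕ) :
    ∃ E, IsL1 ((a : ℤ) * 4 + (b : ℤ) * 6) E ∧ Tendsto E atImInfty (𝓝 1) := by
  refine ⟨(⇑E₄ : ℍ → ℂ) ^ a * (⇑E₆ : ℍ → ℂ) ^ b, (isL1_E₄.pow a).mul (isL1_E₆.pow b), ?_⟩
  have h := (Fermat.Agent.S20.JOrder.tendsto_E₄.pow a).mul (Division.tendsto_E₆.pow b)
  simp only [one_pow, one_mul] at h
  exact h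

theorem exists_nat_decomp (m : ℤ) (hm : Even m) (hm4 : 4 ≤ m) :
    ∃ a b : ℕ, (a : ℤ) * 4 + (b : ℤ) * 6 = m := by
  obtain ⟨r, hr⟩ := hm
  rcases Int.emod_two_eq_zero_or_one r with h | h
  · refine ⟨(r / 2).toNat, 0, ?_⟩
    have : (0 : ℤ) ≤ r / 2 := by omega
    rw [Int.toNat_of_nonneg this]
    omega
  · refine ⟨((r - 3) / 2).toNat, 1, ?_⟩
    have : (0 : ℤ) ≤ (r - 3) / 2 := by omega
    rw [Int.toNat_of_nonneg this]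
    omega

end Div

/-- Homogenizers. -/
theorem exists_isL1_generic (τ₀ : ℍ) (h4 : E₄ τ₀ ≠ 0) (h6 : E₆ τ₀ ≠ 0) (m : ℤ) (hm : Even m)
    (hm4 : 4 ≤ m) : ∃ E, IsL1 m E ∧ E τ₀ = 1 := by
  obtain ⟨a, b, rfl⟩ := Div.exists_nat_decomp m hm hm4
  exact Div.exists_isL1_monomial τ₀ a b (fun _ => h4) (fun _ => h6)

theorem exists_isL1_four (τ₀ : ℍ) (h4 : E₄ τ₀ ≠ 0) (m : ℤ) (hm : (4 : ℤ) ∣ m) (h0 : 0 ≤ m) :
    ∃ E, IsL1 m E ∧ E τ₀ = 1 := by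
  obtain ⟨q, rfl⟩ := hm
  have hq : 0 ≤ q := by omega
  lift q to ℕ using hq
  obtain ⟨E, hE, hE1⟩ := Div.exists_isL1_monomial τ₀ q 0 (fun _ => h4) (fun h => absurd rfl h)
  exact ⟨E, hE.congr_weight (by push_cast; ring), hE1⟩

theorem exists_isL1_six (τ₀ : ℍ) (h6 : E₆ τ₀ ≠ 0) (m : ℤ) (hm : (6 : ℤ) ∣ m) (h0 : 0 ≤ m) :
    ∃ E, IsL1 m E ∧ E τ₀ = 1 := by
  obtain ⟨q, rfl⟩ := hm
  have hq : 0 ≤ q := by omega
  lift q to ℕ using hq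
  obtain ⟨E, hE, hE1⟩ := Div.exists_isL1_monomial τ₀ 0 q (fun h => absurd rfl h) (fun _ => h6)
  exact ⟨E, hE.congr_weight (by push_cast; ring), hE1⟩

theorem exists_isL1_inf (m : ℤ) (hm : Even m) (hm4 : 4 ≤ m) :
    ∃ E, IsL1 m E ∧ Tendsto E atImInfty (𝓝 1) := by
  obtain ⟨a, b, rfl⟩ := Div.exists_nat_decomp m hm hm4
  exact Div.exists_isL1_monomial_inf a b

end Fermat.Agent.S20M
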