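import Mathlib
import Fermat.Agent.S20M.Basic
import Fermat.Agent.S23.SepForm

/-!
# S20M P1: existence of a frame

The powers `1, h, …, h^(μ-1)` of the separating form `h = sepForm N` form a frame: the matrix of
conjugates is a Vandermonde matrix in the pairwise distinct conjugates of `h`.
-/

set_option autoImplicit false

open UpperHalfPlane hiding I
open Complex Filter Function
open scoped Manifold MatrixGroups ModularForm Topology
open ModularForm EisensteinSeries

namespace Fermat.Agent.S20M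

open Fermat.Agent.S20 (X0)
open CongruenceSubgroup

namespace Frame

theorem isMF_one (N : ℕ) : IsMF N 0 (1 : ℍ → ℂ) := isL1_one.isMF N

theorem isMF_mul {N : ℕ} {k₁ k₂ : ℤ} {f g : ℍ → ℂ} (hf : IsMF N k₁ f) (hg : IsMF N k₂ g) :
    IsMF N (k₁ + k₂) (f * g) where
  mdiff := hf.mdiff.mul hg.mdiff
  inv := fun γ hγ => by rw [ModularForm.mul_slash_SL2, hf.inv γ hγ, hg.inv γ hγ]
  bdd := fun σ => by
    rw [ModularForm.mul_slash_SL2]
    exact (hf.bdd σ).mul (hg.bdd σ)

theorem isMF_pow {N : ℕ} {k : ℤ} {f : ℍ → ℂ} (hf : IsMF N k f) (n : ℕ) :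
    IsMF N (n * k) (f ^ n) := by
  induction n with
  | zero => simpa using isMF_one N
  | succ n ih =>
    rw [pow_succ]
    exact (isMF_mul ih hf).congr_weight (by push_cast; ring)

theorem conjK_mul (N : ℕ) (k₁ k₂ : ℤ) (f g : ℍ → ℂ) (x : X0 N) :
    conjK N (k₁ + k₂) (f * g) x = conjK N k₁ f x * conjK N k₂ g x := by
  unfold conjK
  exact ModularForm.mul_slash_SL2 k₁ k₂ _ f g

theorem conjK_one_fun (N : ℕ) (x : X0 N) : conjK N 0 (1 : ℍ → ℂ) x = 1 := by
  unfold conjK
  exact isL1_one.inv _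

theorem conjK_pow (N : ℕ) (k : ℤ) (f : ℍ → ℂ) (x : X0 N) (n : ℕ) :
    conjK N (n * k) (f ^ n) x = conjK N k f x ^ n := by
  induction n with
  | zero => simpa using conjK_one_fun N x
  | succ n ih =>
    rw [pow_succ, pow_succ, ← ih, ← conjK_mul]
    congr 1
    push_cast; ring

/-- A finite product of nonzero holomorphic functions does not vanish identically. -/
theorem prod_ne_zero {ι : Type*} (s : Finset ι) (F : ι → ℍ → ℂ) (hF : ∀ i ∈ s, MDiff (F i))
    (h0 : ∀ i ∈ s, F i ≠ 0) : MDiff (∏ i ∈ s, F i) ∧ ∏ i ∈ s, F i ≠ 0 := by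
  classical
  induction s using Finset.induction_on with
  | empty =>
    refine ⟨(mdifferentiable_const : MDiff (fun _ : ℍ => (1 : ℂ))), ?_⟩
    simp only [Finset.prod_empty]
    intro h
    have := congrFun h UpperHalfPlane.I
    simp at this
  | insert a s ha ih =>
    have ih' := ih (fun i hi => hF i (Finset.mem_insert_of_mem hi))
      (fun i hi => h0 i (Finset.mem_insert_of_mem hi))
    rw [Finset.prod_insert ha]
    refine ⟨(hF a (Finset.mem_insert_self a s)).mul ih'.1, fun h => ?_⟩
    rcases Fermat.Agent.S23.mdiff_eq_zero_or_eq_zero (hF a (Finset.mem_insert_self a s)) ih'.1 h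
      with h1 | h1
    · exact h0 a (Finset.mem_insert_self a s) h1
    · exact ih'.2 h1

/-- The conjugates of the separating form are pairwise distinct. -/
theorem conjK_sepForm_injective (N : ℕ) [NeZero N] :
    Function.Injective (conjK N 4 (⇑(Fermat.Agent.S23.sepForm N) : ℍ → ℂ)) := by
  have hinv := (isMF_coe N (Fermat.Agent.S23.sepForm N)).inv
  intro x y hxy
  induction x using QuotientGroup.induction_on with
  | H g =>
    induction y using QuotientGroup.induction_on with
    | H g' =>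
      rw [conjK_mk hinv, conjK_mk hinv] at hxy
      rw [QuotientGroup.eq]
      by_contra hmem
      apply Fermat.Agent.S23.sepForm_slash_ne N (g⁻¹ * g') hmem
      rw [← slash_slash, hxy, slash_slash, inv_mul_cancel, slash_one']

/-- There is a point where all conjugates of the separating form take distinct values. -/
theorem exists_injective_point (N : ℕ) [NeZero N] :
    ∃ τ : ℍ, Function.Injective
      (fun x : X0 N => conjK N 4 (⇑(Fermat.Agent.S23.sepForm N) : ℍ → ℂ) x τ) := by
  set h : ℍ → ℂ := ⇑(Fermat.Agent.S23.sepForm N) with hh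
  have hmf : IsMF N 4 h := isMF_coe N (Fermat.Agent.S23.sepForm N)
  let s : Finset (X0 N × X0 N) := Finset.univ.filter fun p => p.1 ≠ p.2
  obtain ⟨-, hne⟩ := prod_ne_zero s (fun p => conjK N 4 h p.1 - conjK N 4 h p.2)
    (fun p _ => (hmf.conjK_mdiff p.1).sub (hmf.conjK_mdiff p.2))
    (fun p hp => by
      intro h0
      have hp' : p.1 ≠ p.2 := (Finset.mem_filter.mp hp).2
      exact hp' (conjK_sepForm_injective N (sub_eq_zero.mp h0)))
  have : ∃ τ : ℍ, (∏ p ∈ s, (conjK N 4 h p.1 - conjK N 4 h p.2)) τ ≠ 0 := by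
    by_contra hcon
    push Not at hcon
    exact hne (funext hcon)
  obtain ⟨τ, hτ⟩ := this
  refine ⟨τ, fun x y hxy => ?_⟩
  by_contra hxy'
  apply hτ
  rw [Finset.prod_apply]
  apply Finset.prod_eq_zero (i := (x, y)) (Finset.mem_filter.mpr ⟨Finset.mem_univ _, hxy'⟩)
  simp only [Pi.sub_apply]
  exact sub_eq_zero.mpr hxy

end Frame

/-- Frames exist. -/
theorem exists_frame (N : ℕ) [NeZero N] :
    ∃ (k : X0 N → ℤ) (f : X0 N → ℍ → ℂ), IsFrame N k f := by
  set h : ℍ → ℂ := ⇑(Fermat.Agent.S23.sepForm N) with hh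
  have hmf : IsMF N 4 h := isMF_coe N (Fermat.Agent.S23.sepForm N)
  let e : X0 N ≃ Fin (Fintype.card (X0 N)) := Fintype.equivFin (X0 N)
  refine ⟨fun i => ((e i : ℕ) : ℤ) * 4, fun i => h ^ (e i : ℕ), fun i => Frame.isMF_pow hmf _, ?_⟩
  obtain ⟨τ, hτ⟩ := Frame.exists_injective_point N
  refine ⟨τ, ?_⟩
  have e1 : Mat N (fun i => ((e i : ℕ) : ℤ) * 4) (fun i => h ^ (e i : ℕ)) τ =
      Matrix.reindex e.symm e.symm (Matrix.transpose
        (Matrix.vandermonde (fun b : Fin (Fintype.card (X0 N)) => conjK N 4 h (e.symm b) τ))) := by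
    ext i x
    rw [Mat_apply, Frame.conjK_pow]
    simp [Matrix.vandermonde_apply]
  rw [e1, Matrix.det_reindex_self, Matrix.det_transpose, Matrix.det_vandermonde_ne_zero_iff]
  exact hτ.comp e.symm.injective

end Fermat.Agent.S20M
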