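import Mathlib
import Fermat.Agent.S20M.Basic
import Fermat.Agent.S20.CombBasic

/-!
# S20M, package P6a: periodic holomorphic functions at `i∞`

Pure analysis on `ℍ`: a `1`-periodic holomorphic function of growth `O(exp (2π a Im τ))`, `a < 1`,
has a limit at `i∞`; one which tends to `0` is `O(Δ)`; `Δ` and `q = exp (2πiτ)` are comparable;
`T ^ N` acts trivially on `SL(2,ℤ) ⧸ Γ₀(N)`.
-/

set_option autoImplicit false

open UpperHalfPlane hiding I
open Complex Filter Function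
open scoped Manifold MatrixGroups ModularForm Topology

namespace Fermat.Agent.S20M

open Fermat.Agent.S20 (X0)
open CongruenceSubgroup

namespace InfLim

/-- `q = exp (2πiτ)` as a function on `ℍ`. -/
noncomputable def qq (τ : ℍ) : ℂ := cexp (2 * Real.pi * Complex.I * τ)

theorem qq_eq_qParam (τ : ℍ) : qq τ = Function.Periodic.qParam 1 (τ : ℂ) := by
  simp [qq, Function.Periodic.qParam]

theorem qq_ne_zero (τ : ℍ) : qq τ ≠ 0 := Complex.exp_ne_zero _

theorem norm_qq (τ : ℍ) : ‖qq τ‖ = Real.exp (-2 * Real.pi * τ.im) := by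
  simp [qq, Complex.norm_exp]

theorem qq_vadd (τ : ℍ) : qq ((1 : ℝ) +ᵥ τ) = qq τ := by
  unfold qq
  rw [UpperHalfPlane.coe_vadd]
  simp only [ofReal_one]
  rw [show 2 * (Real.pi : ℂ) * Complex.I * (1 + (τ : ℂ)) =
      2 * Real.pi * Complex.I * τ + 2 * Real.pi * Complex.I by ring,
    Complex.exp_add, Complex.exp_two_pi_mul_I, mul_one]

theorem mdiff_qq : MDiff qq := by
  rw [UpperHalfPlane.mdifferentiable_iff]
  have : DifferentiableOn ℂ (fun w : ℂ => cexp (2 * Real.pi * Complex.I * w)) {z | 0 < z.im} := by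
    fun_prop
  refine this.congr fun w hw => ?_
  simp [qq, ofComplex_apply_of_im_pos hw]

theorem periodic_of_vadd {f : ℍ → ℂ} (h : ∀ z : ℍ, f ((1 : ℝ) +ᵥ z) = f z) :
    Function.Periodic (f ∘ ofComplex) ((1 : ℝ) : ℂ) := by
  intro w
  by_cases! hw : 0 < im w
  · have : 0 < im (w + ((1 : ℝ) : ℂ)) := by simp [hw]
    simp only [comp_apply, ofComplex_apply_of_im_pos this, ofComplex_apply_of_im_pos hw]
    convert h ⟨w, hw⟩ using 2
    ext
    simp [add_comm]
  · have : im (w + ((1 : ℝ) : ℂ)) ≤ 0 := by simpa using hw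
    simp only [comp_apply]
    rw [ofComplex_apply_eq_of_im_nonpos this hw]

theorem tendsto_exp_neg_im (c : ℝ) (hc : 0 < c) :
    Tendsto (fun τ : ℍ => Real.exp (-c * τ.im)) atImInfty (𝓝 0) := by
  have h1 : Tendsto (fun τ : ℍ => τ.im) atImInfty atTop := tendsto_comap
  have h2 : Tendsto (fun τ : ℍ => c * τ.im) atImInfty atTop := h1.const_mul_atTop hc
  have h3 := Real.tendsto_exp_neg_atTop_nhds_zero.comp h2
  refine h3.congr fun τ => ?_
  simp [Function.comp]

/-- `Δ / q → 1` at `i∞`. -/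
theorem tendsto_disc_div_qq :
    Tendsto (fun τ : ℍ => ModularForm.discriminant τ / qq τ) atImInfty (𝓝 1) := by
  refine ModularForm.tendsto_atImInfty_tprod_one_sub_eta_q_pow.congr fun τ => ?_
  rw [ModularForm.discriminant_eq_q_prod, qq_eq_qParam, mul_comm,
    mul_div_assoc, div_self (Function.Periodic.qParam_ne_zero _), mul_one]

theorem isBigO_of_zero {Ψ : ℍ → ℂ} (hΨ : MDiff Ψ)
    (hper : ∀ τ : ℍ, Ψ ((1 : ℝ) +ᵥ τ) = Ψ τ) (h0 : IsZeroAtImInfty Ψ) :
    Ψ =O[atImInfty] fun τ : ℍ => Real.exp (-2 * Real.pi * τ.im) := by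
  have h := h0.exp_decay_atImInfty one_pos (periodic_of_vadd hper) hΨ h0.isBoundedAtImInfty
  simpa using h

end InfLim

open InfLim

theorem isBoundedAtImInfty_disc_div_q :
    IsBoundedAtImInfty
      (fun τ : ℍ => ModularForm.discriminant τ / cexp (2 * Real.pi * Complex.I * τ)) :=
  tendsto_disc_div_qq.isBigO_one ℝ

theorem isBoundedAtImInfty_q_div_disc :
    IsBoundedAtImInfty
      (fun τ : ℍ => cexp (2 * Real.pi * Complex.I * τ) / ModularForm.discriminant τ) := by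
  have h : Tendsto (fun τ : ℍ => (ModularForm.discriminant τ / qq τ)⁻¹) atImInfty (𝓝 1) := by
    simpa using tendsto_disc_div_qq.inv₀ one_ne_zero
  have h' : Tendsto (fun τ : ℍ => cexp (2 * Real.pi * Complex.I * τ) / ModularForm.discriminant τ)
      atImInfty (𝓝 1) := by
    refine h.congr fun τ => ?_
    rw [inv_div]
    rfl
  exact h'.isBigO_one ℝ

theorem isBoundedAtImInfty_div_disc_of_periodic {Ψ : ℍ → ℂ} (hΨ : MDiff Ψ)
    (hper : ∀ τ : ℍ, Ψ ((1 : ℝ) +ᵥ τ) = Ψ τ) (h0 : IsZeroAtImInfty Ψ) :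
    IsBoundedAtImInfty (fun τ => Ψ τ / ModularForm.discriminant τ) := by
  have h1 : Ψ =O[atImInfty] fun τ : ℍ => ModularForm.discriminant τ :=
    (isBigO_of_zero hΨ hper h0).trans ModularForm.exp_isBigO_discriminant
  obtain ⟨c, hc⟩ := h1.bound
  refine Asymptotics.IsBigO.of_bound c ?_
  filter_upwards [hc] with τ hτ
  rw [norm_div, Pi.one_apply, norm_one, mul_one,
    div_le_iff₀ (norm_pos_iff.mpr (ModularForm.discriminant_ne_zero τ))]
  exact hτ

theorem exists_tendsto_of_periodic {Ψ : ℍ → ℂ} (hΨ : MDiff Ψ)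
    (hper : ∀ τ : ℍ, Ψ ((1 : ℝ) +ᵥ τ) = Ψ τ) (a : ℝ) (ha : a < 1)
    (hgrowth : ∃ C : ℝ, ∀ᶠ τ : ℍ in atImInfty, ‖Ψ τ‖ ≤ C * Real.exp (2 * Real.pi * a * τ.im)) :
    ∃ ℓ : ℂ, Tendsto Ψ atImInfty (𝓝 ℓ) := by
  obtain ⟨C, hC⟩ := hgrowth
  have hΦmd : MDiff (fun τ : ℍ => Ψ τ * qq τ) := hΨ.mul mdiff_qq
  have hΦper : ∀ τ : ℍ, (fun τ : ℍ => Ψ τ * qq τ) ((1 : ℝ) +ᵥ τ) = (fun τ : ℍ => Ψ τ * qq τ) τ :=
    fun τ => by simp only [hper, qq_vadd]
  have hΦzero : IsZeroAtImInfty (fun τ : ℍ => Ψ τ * qq τ) := by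
    have hpos : 0 < 2 * Real.pi * (1 - a) := by
      have := Real.pi_pos
      nlinarith
    have hlim : Tendsto (fun τ : ℍ => C * Real.exp (-(2 * Real.pi * (1 - a)) * τ.im)) atImInfty
        (𝓝 0) := by
      simpa using (tendsto_exp_neg_im _ hpos).const_mul C
    refine squeeze_zero_norm' ?_ hlim
    filter_upwards [hC] with τ hτ
    rw [norm_mul, norm_qq]
    calc ‖Ψ τ‖ * Real.exp (-2 * Real.pi * τ.im)
        ≤ C * Real.exp (2 * Real.pi * a * τ.im) * Real.exp (-2 * Real.pi * τ.im) :=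
          mul_le_mul_of_nonneg_right hτ (Real.exp_pos _).le
      _ = C * Real.exp (-(2 * Real.pi * (1 - a)) * τ.im) := by
          rw [mul_assoc, ← Real.exp_add]
          congr 2
          ring
  have hΦO := isBigO_of_zero hΦmd hΦper hΦzero
  have hΨbdd : IsBoundedAtImInfty Ψ := by
    obtain ⟨c, hc⟩ := hΦO.bound
    refine Asymptotics.IsBigO.of_bound c ?_
    filter_upwards [hc] with τ hτ
    rw [Pi.one_apply, norm_one, mul_one]
    rw [norm_mul, norm_qq, Real.norm_of_nonneg (Real.exp_pos _).le] at hτ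
    exact le_of_mul_le_mul_right hτ (Real.exp_pos _)
  refine ⟨valueAtInfty Ψ, ?_⟩
  have h := UpperHalfPlane.exp_decay_sub_atImInfty one_pos (periodic_of_vadd hper) hΨ hΨbdd
  have h2 : Tendsto (fun τ : ℍ => Real.exp (-2 * Real.pi * τ.im / (1 : ℝ))) atImInfty (𝓝 0) := by
    have := tendsto_exp_neg_im (2 * Real.pi) Real.two_pi_pos
    refine this.congr fun τ => ?_
    congr 1
    ring
  have h3 : Tendsto (fun τ : ℍ => Ψ τ - valueAtInfty Ψ) atImInfty (𝓝 0) := h.trans_tendsto h2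
  simpa using h3.add_const (valueAtInfty Ψ)

/-- `T ^ N` acts trivially on `X0 N`. -/
theorem T_pow_smul (N : ℕ) (x : X0 N) : (ModularGroup.T ^ N) • x = x := by
  induction x using QuotientGroup.induction_on with
  | H g =>
    rw [Fermat.Agent.S20.Comb.smul_mk, Fermat.Agent.S20.Comb.mk_eq_mk_iff,
      Fermat.Agent.S20.Comb.cross]
    have h0 := Fermat.Agent.S20.Comb.Tzpow_mul_00 (N : ℤ) g
    have h1 := Fermat.Agent.S20.Comb.Tzpow_mul_10 (N : ℤ) g
    rw [zpow_natCast] at h0 h1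
    rw [h0, h1]
    exact ⟨g 1 0 * g 1 0, by ring⟩

end Fermat.Agent.S20M
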