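import Mathlib
import Fermat.Prelude.Def_ModularCurve_GenusNumerics

/-!
# S20M P9: numerics

Stub-verbatim statements (findings 34):
* `finrank_cuspForm_levelOne`: `12 * dim S_{k+2}(SL(2,ℤ))` for `k ≥ 0` even.
* `genusFormula_le_sum`: `genusFormula N ≤ ∑ dim S_{k_i+2}(SL(2,ℤ))` from the numerical data of a
  minimal frame.

Further material:
* `finrank_cuspForm_levelOne_rat`, `finrank_cuspForm_levelOne_int`: closed `ℚ`-valued formula.
* `sum_finrank_cuspForm_levelOne`, `sum_finrank_cuspForm_levelOne_int`: exact summation formula.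
* `card_mod_four_eq`, `card_mod_six_eq`, `card_mod_four_eq_int`, `card_mod_six_eq_int`: the
  weight counts modulo `4` and `6` from the symmetry of an invertible matrix under a permutation
  (trace comparison).
-/

set_option autoImplicit false

open UpperHalfPlane hiding I
open Complex Filter Function
open scoped Manifold MatrixGroups ModularForm Topology
open ModularForm EisensteinSeries

namespace Fermat.Agent.S20M

namespace Numerics

/-- the dimension of the space of level-one cusp forms of weight `k + 2`, `k` even. -/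
theorem finrank_nat (k : ℕ) (hk : Even k) :
    Module.finrank ℂ (CuspForm 𝒮ℒ ((k : ℤ) + 2)) =
      if k < 10 then 0 else if (k - 10) % 12 = 2 then (k - 10) / 12 else (k - 10) / 12 + 1 := by
  rw [(CuspForm.discriminantEquiv (k := (k : ℤ) + 2)).finrank_eq]
  by_cases h10 : k < 10
  · rw [if_pos h10]
    apply Module.finrank_eq_of_rank_eq
    rw [levelOne_neg_weight_rank_zero (by omega)]
    simp
  · rw [if_neg h10]
    have e : (k : ℤ) + 2 - 12 = ((k - 10 : ℕ) : ℤ) := by omega
    rw [e]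
    have hev : Even (k - 10) := by
      rw [Nat.even_iff] at hk ⊢
      omega
    have h := dimension_level_one (k - 10) hev
    by_cases h2 : (k - 10) % 12 = 2
    · rw [if_pos h2]
      rw [if_pos (show (k - 10) ≡ 2 [MOD 12] from h2)] at h
      exact Module.finrank_eq_of_rank_eq (by rw [h]; try norm_cast)
    · rw [if_neg h2]
      rw [if_neg (show ¬ (k - 10) ≡ 2 [MOD 12] from h2)] at h
      exact Module.finrank_eq_of_rank_eq (by rw [h]; try norm_cast)

theorem twelve_mul (k : ℕ) (hk : k % 2 = 0) :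
    (12 : ℤ) * ((if k < 10 then 0 else if (k - 10) % 12 = 2 then (k - 10) / 12
        else (k - 10) / 12 + 1 : ℕ) : ℤ)
      = k + (if k % 4 = 2 then 6 else 0) - (if k % 6 = 0 then 12 else 0)
        - (if k % 6 = 2 then 8 else 0) - (if k % 6 = 4 then 4 else 0)
        + (if k = 0 then 12 else 0) := by
  split_ifs <;> omega

end Numerics

/-- (N1) closed formula for `dim S_{k+2}(SL(2,ℤ))`, `k` even. -/
theorem finrank_cuspForm_levelOne_rat (k : ℕ) (hk : Even k) :
    (Module.finrank ℂ (CuspForm 𝒮ℒ ((k : ℤ) + 2)) : ℚ) =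
      (k : ℚ) / 12 + (if k % 4 = 2 then 1 / 2 else 0) - (if k % 6 = 0 then 1 else 0)
        - (if k % 6 = 2 then 2 / 3 else 0) - (if k % 6 = 4 then 1 / 3 else 0)
        + (if k = 0 then 1 else 0) := by
  rw [Numerics.finrank_nat k hk]
  have h := Numerics.twelve_mul k (Nat.even_iff.mp hk)
  generalize (if k < 10 then 0 else if (k - 10) % 12 = 2 then (k - 10) / 12
    else (k - 10) / 12 + 1 : ℕ) = d at h ⊢
  have h' := congrArg (Int.cast : ℤ → ℚ) h
  push_cast at h'
  split_ifs at h' ⊢ <;> linarith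

namespace Numerics

theorem sum_ite_const {ι R : Type*} [Fintype ι] [CommSemiring R] (p : ι → Prop)
    [DecidablePred p] (c : R) :
    ∑ i, (if p i then c else 0) = c * ((Finset.univ.filter p).card : R) := by
  rw [Finset.sum_ite, Finset.sum_const, Finset.sum_const_zero, add_zero, nsmul_eq_mul, mul_comm]

theorem card_mod_six {ι : Type*} [Fintype ι] (k : ι → ℕ) (hk : ∀ i, Even (k i)) :
    ((Finset.univ.filter fun i => k i % 6 = 0).card : ℚ)
      + ((Finset.univ.filter fun i => k i % 6 = 2).card : ℚ)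
      + ((Finset.univ.filter fun i => k i % 6 = 4).card : ℚ) = (Fintype.card ι : ℚ) := by
  have h1 : ∀ i, ((if k i % 6 = 0 then 1 else 0) + (if k i % 6 = 2 then 1 else 0)
      + (if k i % 6 = 4 then 1 else 0) : ℚ) = 1 := by
    intro i
    have := Nat.even_iff.mp (hk i)
    split_ifs <;> first | omega | norm_num
  have h2 := Finset.sum_congr (rfl : (Finset.univ : Finset ι) = Finset.univ) (fun i _ => h1 i)
  rw [Finset.sum_add_distrib, Finset.sum_add_distrib, sum_ite_const, sum_ite_const,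
    sum_ite_const, Finset.sum_const, Finset.card_univ] at h2
  simpa using h2

end Numerics

/-- (N2) the sum of the dimensions `dim S_{k_i+2}(SL(2,ℤ))` from the numerical data of a
minimal frame. -/
theorem sum_finrank_cuspForm_levelOne {ι : Type*} [Fintype ι] (k : ι → ℕ)
    (hk : ∀ i, Even (k i)) (μ ν₂ ν₃ c : ℚ) (hμ : (Fintype.card ι : ℚ) = μ)
    (hK : (∑ i, (k i : ℚ)) = 6 * (μ - c))
    (h4 : ((Finset.univ.filter fun i => k i % 4 = 2).card : ℚ) = (μ - ν₂) / 2)
    (h62 : ((Finset.univ.filter fun i => k i % 6 = 2).card : ℚ) = (μ - ν₃) / 3)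
    (h64 : ((Finset.univ.filter fun i => k i % 6 = 4).card : ℚ) = (μ - ν₃) / 3)
    (h0 : (Finset.univ.filter fun i => k i = 0).card = 1) :
    ∑ i, (Module.finrank ℂ (CuspForm 𝒮ℒ ((k i : ℤ) + 2)) : ℚ)
      = 1 + μ / 12 - ν₂ / 4 - ν₃ / 3 - c / 2 := by
  have h6 := Numerics.card_mod_six k hk
  rw [Finset.sum_congr rfl (fun i _ => finrank_cuspForm_levelOne_rat (k i) (hk i))]
  simp only [Finset.sum_add_distrib, Finset.sum_sub_distrib, Numerics.sum_ite_const,
    ← Finset.sum_div]
  rw [hK, h4, h62, h64, h0]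
  rw [hμ, h62, h64] at h6
  push_cast
  linarith

namespace Numerics

/-- trace identity: if `M` is invertible and `M i (σ x) = ε i * M i x` then `∑ ε i` is the
number of fixed points of `σ`. -/
theorem sum_eq_card_fixed {X : Type*} [Fintype X] [DecidableEq X] (M : Matrix X X ℂ)
    (hM : M.det ≠ 0) (σ : X → X) (ε : X → ℂ) (h : ∀ i x, M i (σ x) = ε i * M i x) :
    ∑ i, ε i = ((Finset.univ.filter fun x => σ x = x).card : ℂ) := by
  set P : Matrix X X ℂ := fun x y => if x = σ y then 1 else 0 with hP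
  have h1 : M * P = Matrix.diagonal ε * M := by
    ext i y
    rw [Matrix.mul_apply, Matrix.diagonal_mul]
    simp [hP, h]
  have hu : IsUnit M.det := isUnit_iff_ne_zero.mpr hM
  have h2 : P = M⁻¹ * (Matrix.diagonal ε * M) := by
    rw [← h1, ← Matrix.mul_assoc, Matrix.nonsing_inv_mul _ hu, Matrix.one_mul]
  have h3 : Matrix.trace P = ∑ i, ε i := by
    rw [h2, Matrix.trace_mul_comm, Matrix.mul_assoc, Matrix.mul_nonsing_inv _ hu, Matrix.mul_one,
      Matrix.trace_diagonal]
  rw [← h3]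
  simp only [Matrix.trace, Matrix.diag, hP]
  rw [sum_ite_const, one_mul]
  congr 2
  ext x
  simp [eq_comm]

theorem pow_of_sq_eq_neg_one (u : ℂ) (hu : u ^ 2 = -1) (k : ℕ) (hk : Even k) :
    u ^ k = 1 - 2 * (if k % 4 = 2 then 1 else 0) := by
  obtain ⟨m, rfl⟩ := hk
  rw [← two_mul, pow_mul, hu]
  rcases Nat.even_or_odd m with hm | hm
  · rw [hm.neg_one_pow, if_neg (by obtain ⟨n, rfl⟩ := hm; omega)]
    ring
  · rw [hm.neg_one_pow, if_pos (by obtain ⟨n, rfl⟩ := hm; omega)]
    ring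

theorem pow_of_sixth_root (u : ℂ) (hu : u ^ 2 - u + 1 = 0) (k : ℕ) (hk : Even k) :
    u ^ k = (if k % 6 = 0 then 1 else 0) + (if k % 6 = 2 then u - 1 else 0)
      + (if k % 6 = 4 then -u else 0) := by
  have h2 : u ^ 2 = u - 1 := by linear_combination hu
  have h4 : u ^ 4 = -u := by
    have : u ^ 4 = (u ^ 2) ^ 2 := by ring
    rw [this, h2]
    linear_combination hu
  have h6 : u ^ 6 = 1 := by
    have : u ^ 6 = u ^ 4 * u ^ 2 := by ring
    rw [this, h4, h2]
    linear_combination -hu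
  have hk2 := Nat.even_iff.mp hk
  have hr : k % 6 = 0 ∨ k % 6 = 2 ∨ k % 6 = 4 := by omega
  have hpow : u ^ k = u ^ (k % 6) := by
    conv_lhs => rw [← Nat.div_add_mod k 6, pow_add, pow_mul, h6, one_pow, one_mul]
  rw [hpow]
  rcases hr with h | h | h <;> rw [h] <;> simp [h2, h4]

theorem im_ne_zero_of_sixth_root (u : ℂ) (hu : u ^ 2 - u + 1 = 0) : u.im ≠ 0 := by
  intro him
  have h := congrArg Complex.re hu
  simp [pow_two, Complex.mul_re, him] at h
  nlinarith [sq_nonneg (u.re - 1 / 2)]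

end Numerics

/-- (N3a) the number of weights `≡ 2 mod 4`, from the symmetry at an elliptic point of order
two. -/
theorem card_mod_four_eq {X : Type*} [Fintype X] [DecidableEq X] (k : X → ℕ)
    (hk : ∀ i, Even (k i)) (M : Matrix X X ℂ) (hM : M.det ≠ 0) (σ : X → X) (u : ℂ)
    (hu : u ^ 2 = -1) (h : ∀ i x, M i (σ x) = u ^ k i * M i x) :
    ((Finset.univ.filter fun i => k i % 4 = 2).card : ℚ) =
      ((Fintype.card X : ℚ) - ((Finset.univ.filter fun x => σ x = x).card : ℚ)) / 2 := by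
  have h1 := Numerics.sum_eq_card_fixed M hM σ (fun i => u ^ k i) h
  rw [Finset.sum_congr rfl (fun i _ => Numerics.pow_of_sq_eq_neg_one u hu (k i) (hk i))] at h1
  rw [Finset.sum_sub_distrib, ← Finset.mul_sum, Numerics.sum_ite_const, Finset.sum_const,
    Finset.card_univ, one_mul, nsmul_eq_mul, mul_one] at h1
  have h2 : ((Fintype.card X : ℤ) - 2 * ((Finset.univ.filter fun i => k i % 4 = 2).card : ℤ))
      = ((Finset.univ.filter fun x => σ x = x).card : ℤ) := by
    exact_mod_cast h1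
  have h3 := congrArg (Int.cast : ℤ → ℚ) h2
  push_cast at h3
  linarith

/-- (N3b) the numbers of weights `≡ 2` and `≡ 4 mod 6`, from the symmetry at an elliptic point
of order three. -/
theorem card_mod_six_eq {X : Type*} [Fintype X] [DecidableEq X] (k : X → ℕ)
    (hk : ∀ i, Even (k i)) (M : Matrix X X ℂ) (hM : M.det ≠ 0) (σ : X → X) (u : ℂ)
    (hu : u ^ 2 - u + 1 = 0) (h : ∀ i x, M i (σ x) = u ^ k i * M i x) :
    ((Finset.univ.filter fun i => k i % 6 = 2).card : ℚ) =
        ((Fintype.card X : ℚ) - ((Finset.univ.filter fun x => σ x = x).card : ℚ)) / 3 ∧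
      ((Finset.univ.filter fun i => k i % 6 = 4).card : ℚ) =
        ((Fintype.card X : ℚ) - ((Finset.univ.filter fun x => σ x = x).card : ℚ)) / 3 := by
  have h1 := Numerics.sum_eq_card_fixed M hM σ (fun i => u ^ k i) h
  rw [Finset.sum_congr rfl (fun i _ => Numerics.pow_of_sixth_root u hu (k i) (hk i))] at h1
  rw [Finset.sum_add_distrib, Finset.sum_add_distrib, Numerics.sum_ite_const,
    Numerics.sum_ite_const, Numerics.sum_ite_const] at h1
  set n₀ := (Finset.univ.filter fun i => k i % 6 = 0).card with hn₀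
  set n₂ := (Finset.univ.filter fun i => k i % 6 = 2).card with hn₂
  set n₄ := (Finset.univ.filter fun i => k i % 6 = 4).card with hn₄
  set F := (Finset.univ.filter fun x => σ x = x).card with hF
  have him := Numerics.im_ne_zero_of_sixth_root u hu
  have hI := congrArg Complex.im h1
  have hR := congrArg Complex.re h1
  simp only [Complex.add_im, Complex.mul_im, Complex.one_re, Complex.one_im, Complex.natCast_re,
    Complex.natCast_im, Complex.sub_im, Complex.neg_im, Complex.add_re, Complex.mul_re,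
    Complex.sub_re, Complex.neg_re, mul_zero, sub_zero, zero_add, one_mul]
    at hI hR
  have h24 : (n₂ : ℝ) = n₄ := by
    have : ((n₂ : ℝ) - n₄) * u.im = 0 := by linarith
    rcases mul_eq_zero.mp this with h' | h'
    · linarith
    · exact absurd h' him
  have h0 : (n₀ : ℝ) - n₂ = F := by
    have : ((n₂ : ℝ) - n₄) * u.re = 0 := by rw [h24]; ring
    linarith
  have hsum : (n₀ : ℚ) + n₂ + n₄ = Fintype.card X := by
    have h1 : ∀ i, ((if k i % 6 = 0 then 1 else 0) + (if k i % 6 = 2 then 1 else 0)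
        + (if k i % 6 = 4 then 1 else 0) : ℚ) = 1 := by
      intro i
      have := Nat.even_iff.mp (hk i)
      split_ifs <;> first | omega | norm_num
    have h2 := Finset.sum_congr (rfl : (Finset.univ : Finset X) = Finset.univ) (fun i _ => h1 i)
    rw [Finset.sum_add_distrib, Finset.sum_add_distrib, Numerics.sum_ite_const,
      Numerics.sum_ite_const, Numerics.sum_ite_const, Finset.sum_const, Finset.card_univ] at h2
    simpa using h2
  have h24' : (n₂ : ℚ) = n₄ := by exact_mod_cast h24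
  have h0' : (n₀ : ℚ) - n₂ = F := by
    have : ((n₀ : ℤ) - n₂ : ℤ) = (F : ℤ) := by exact_mod_cast h0
    exact_mod_cast this
  constructor <;> linarith

namespace Numerics

theorem natCast_mod_four (n : ℕ) : ((n : ℤ) % 4 = 2) ↔ (n % 4 = 2) := by omega
theorem natCast_mod_six_zero (n : ℕ) : ((n : ℤ) % 6 = 0) ↔ (n % 6 = 0) := by omega
theorem natCast_mod_six_two (n : ℕ) : ((n : ℤ) % 6 = 2) ↔ (n % 6 = 2) := by omega
theorem natCast_mod_six_four (n : ℕ) : ((n : ℤ) % 6 = 4) ↔ (n % 6 = 4) := by omega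
theorem natCast_eq_zero' (n : ℕ) : ((n : ℤ) = 0) ↔ (n = 0) := by omega

end Numerics

/-- (N1, integer weights) closed formula for `dim S_{k+2}(SL(2,ℤ))`, `k ≥ 0` even. -/
theorem finrank_cuspForm_levelOne_int (k : ℤ) (h0 : 0 ≤ k) (hk : Even k) :
    (Module.finrank ℂ (CuspForm 𝒮ℒ (k + 2)) : ℚ) =
      (k : ℚ) / 12 + (if k % 4 = 2 then 1 / 2 else 0) - (if k % 6 = 0 then 1 else 0)
        - (if k % 6 = 2 then 2 / 3 else 0) - (if k % 6 = 4 then 1 / 3 else 0)
        + (if k = 0 then 1 else 0) := by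
  lift k to ℕ using h0
  have hk' : Even k := by exact_mod_cast hk
  rw [finrank_cuspForm_levelOne_rat k hk']
  simp only [Numerics.natCast_mod_four, Numerics.natCast_mod_six_zero,
    Numerics.natCast_mod_six_two, Numerics.natCast_mod_six_four, Numerics.natCast_eq_zero']
  push_cast
  rfl

/-- (N2, integer weights). -/
theorem sum_finrank_cuspForm_levelOne_int {ι : Type*} [Fintype ι] (k : ι → ℤ)
    (h0 : ∀ i, 0 ≤ k i) (hk : ∀ i, Even (k i)) (μ ν₂ ν₃ c : ℚ)
    (hμ : (Fintype.card ι : ℚ) = μ)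
    (hK : ((∑ i, k i : ℤ) : ℚ) = 6 * (μ - c))
    (h4 : ((Finset.univ.filter fun i => k i % 4 = 2).card : ℚ) = (μ - ν₂) / 2)
    (h62 : ((Finset.univ.filter fun i => k i % 6 = 2).card : ℚ) = (μ - ν₃) / 3)
    (h64 : ((Finset.univ.filter fun i => k i % 6 = 4).card : ℚ) = (μ - ν₃) / 3)
    (hzero : (Finset.univ.filter fun i => k i = 0).card = 1) :
    ∑ i, (Module.finrank ℂ (CuspForm 𝒮ℒ (k i + 2)) : ℚ)
      = 1 + μ / 12 - ν₂ / 4 - ν₃ / 3 - c / 2 := by
  lift k to ι → ℕ using h0
  have hk' : ∀ i, Even (k i) := fun i => (Int.even_coe_nat (k i)).mp (hk i)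
  simp only [Numerics.natCast_mod_four, Numerics.natCast_mod_six_two,
    Numerics.natCast_mod_six_four, Numerics.natCast_eq_zero'] at h4 h62 h64 hzero
  refine sum_finrank_cuspForm_levelOne k hk' μ ν₂ ν₃ c hμ ?_ h4 h62 h64 hzero
  rw [← hK]
  push_cast
  rfl

/-- (N3a, integer weights, in the shape of `Mat_smul` at a fixed point): if
`M i x = d ^ k i * M i (s x)` with `d ^ 2 = -1` then `#{i | k i ≡ 2 mod 4} = (|X| - #Fix s)/2`. -/
theorem card_mod_four_eq_int {X : Type*} [Fintype X] [DecidableEq X] (k : X → ℤ)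
    (h0 : ∀ i, 0 ≤ k i) (hk : ∀ i, Even (k i)) (M : Matrix X X ℂ) (hM : M.det ≠ 0) (s : X → X)
    (d : ℂ) (hd : d ^ 2 = -1) (h : ∀ i x, M i x = d ^ k i * M i (s x)) :
    ((Finset.univ.filter fun i => k i % 4 = 2).card : ℚ) =
      ((Fintype.card X : ℚ) - ((Finset.univ.filter fun x => s x = x).card : ℚ)) / 2 := by
  lift k to X → ℕ using h0
  have hk' : ∀ i, Even (k i) := fun i => (Int.even_coe_nat (k i)).mp (hk i)
  have hd0 : d ≠ 0 := by
    rintro rfl
    norm_num at hd
  have hu : (d⁻¹) ^ 2 = -1 := by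
    rw [inv_pow, hd]
    norm_num
  have h' : ∀ i x, M i (s x) = (d⁻¹) ^ k i * M i x := by
    intro i x
    have := h i x
    rw [zpow_natCast] at this
    rw [this, inv_pow, ← mul_assoc, inv_mul_cancel₀ (pow_ne_zero _ hd0), one_mul]
  simp only [Numerics.natCast_mod_four]
  exact card_mod_four_eq k hk' M hM s d⁻¹ hu h'

/-- (N3b, integer weights, in the shape of `Mat_smul` at a fixed point): if
`M i x = d ^ k i * M i (s x)` with `d ^ 2 - d + 1 = 0` then
`#{i | k i ≡ 2 mod 6} = #{i | k i ≡ 4 mod 6} = (|X| - #Fix s)/3`. -/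
theorem card_mod_six_eq_int {X : Type*} [Fintype X] [DecidableEq X] (k : X → ℤ)
    (h0 : ∀ i, 0 ≤ k i) (hk : ∀ i, Even (k i)) (M : Matrix X X ℂ) (hM : M.det ≠ 0) (s : X → X)
    (d : ℂ) (hd : d ^ 2 - d + 1 = 0) (h : ∀ i x, M i x = d ^ k i * M i (s x)) :
    ((Finset.univ.filter fun i => k i % 6 = 2).card : ℚ) =
        ((Fintype.card X : ℚ) - ((Finset.univ.filter fun x => s x = x).card : ℚ)) / 3 ∧
      ((Finset.univ.filter fun i => k i % 6 = 4).card : ℚ) =
        ((Fintype.card X : ℚ) - ((Finset.univ.filter fun x => s x = x).card : ℚ)) / 3 := by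
  lift k to X → ℕ using h0
  have hk' : ∀ i, Even (k i) := fun i => (Int.even_coe_nat (k i)).mp (hk i)
  have hd0 : d ≠ 0 := by
    rintro rfl
    norm_num at hd
  have hu : (d⁻¹) ^ 2 - d⁻¹ + 1 = 0 := by
    field_simp
    linear_combination hd
  have h' : ∀ i x, M i (s x) = (d⁻¹) ^ k i * M i x := by
    intro i x
    have := h i x
    rw [zpow_natCast] at this
    rw [this, inv_pow, ← mul_assoc, inv_mul_cancel₀ (pow_ne_zero _ hd0), one_mul]
  simp only [Numerics.natCast_mod_six_two, Numerics.natCast_mod_six_four]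
  exact card_mod_six_eq k hk' M hM s d⁻¹ hu h'

namespace Numerics

theorem twelve_mul_int (k : ℕ) (hk : k % 2 = 0) :
    (12 : ℤ) * ((if k < 10 then 0 else if (k - 10) % 12 = 2 then (k - 10) / 12
        else (k - 10) / 12 + 1 : ℕ) : ℤ)
      = (k : ℤ) + (if (k : ℤ) % 4 = 2 then 6 else 0)
        - (if (k : ℤ) % 6 = 0 then 12 else if (k : ℤ) % 6 = 2 then 8 else 4)
        + (if (k : ℤ) = 0 then 12 else 0) := by
  split_ifs <;> omega

/-- the stub formula rewritten with indicator functions. -/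
theorem twelve_mul_finrank (k : ℤ) (hk : 0 ≤ k) (he : Even k) :
    (12 * Module.finrank ℂ (CuspForm 𝒮ℒ (k + 2)) : ℤ) =
      k + 6 * (if k % 4 = 2 then 1 else 0) - 12 + 4 * (if k % 6 = 2 then 1 else 0)
        + 8 * (if k % 6 = 4 then 1 else 0) + 12 * (if k = 0 then 1 else 0) := by
  lift k to ℕ using hk
  have he' : Even k := (Int.even_coe_nat k).mp he
  rw [finrank_nat k he']
  have h := twelve_mul_int k (Nat.even_iff.mp he')
  rw [h]
  have h2 := Nat.even_iff.mp he'
  split_ifs <;> omega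

end Numerics

/-- dimension of level-one cusp forms of weight `k + 2`, `k ≥ 0` even -/
theorem finrank_cuspForm_levelOne (k : ℤ) (hk : 0 ≤ k) (he : Even k) :
    (12 * Module.finrank ℂ (CuspForm 𝒮ℒ (k + 2)) : ℤ) =
      k + (if k % 4 = 2 then 6 else 0) - (if k % 6 = 0 then 12 else if k % 6 = 2 then 8 else 4)
        + (if k = 0 then 12 else 0) := by
  lift k to ℕ using hk
  have he' : Even k := (Int.even_coe_nat k).mp he
  rw [Numerics.finrank_nat k he']
  exact Numerics.twelve_mul_int k (Nat.even_iff.mp he')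

theorem genusFormula_le_sum {ι : Type} [Fintype ι] (N : ℕ) (k : ι → ℤ) (μ ν₂ ν₃ c : ℕ)
    (hμ : Fintype.card ι = μ)
    (hμN : μ = ModularCurve.dedekindPsi N) (hν₂ : ν₂ = ModularCurve.nuTwo N)
    (hν₃ : ν₃ = ModularCurve.nuThree N) (hc : c = ModularCurve.cuspCount N)
    (h0 : ∀ i, 0 ≤ k i) (he : ∀ i, Even (k i))
    (hK : 6 * ((μ : ℤ) - c) ≤ ∑ i, k i)
    (h4 : 2 * ((Finset.univ.filter fun i => k i % 4 = 2).card : ℤ) = μ - ν₂)
    (h62 : 3 * ((Finset.univ.filter fun i => k i % 6 = 2).card : ℤ) = μ - ν₃)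
    (h64 : 3 * ((Finset.univ.filter fun i => k i % 6 = 4).card : ℤ) = μ - ν₃)
    (hz : ∃ i, k i = 0) :
    ModularCurve.genusFormula N ≤ ((∑ i, Module.finrank ℂ (CuspForm 𝒮ℒ (k i + 2)) : ℕ) : ℚ) := by
  have hsum : (12 : ℤ) * ((∑ i, Module.finrank ℂ (CuspForm 𝒮ℒ (k i + 2)) : ℕ) : ℤ) =
      ∑ i, k i + 6 * ((Finset.univ.filter fun i => k i % 4 = 2).card : ℤ) - 12 * (μ : ℤ)
        + 4 * ((Finset.univ.filter fun i => k i % 6 = 2).card : ℤ)
        + 8 * ((Finset.univ.filter fun i => k i % 6 = 4).card : ℤ)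
        + 12 * ((Finset.univ.filter fun i => k i = 0).card : ℤ) := by
    push_cast
    rw [Finset.mul_sum, Finset.sum_congr rfl
      (fun i _ => Numerics.twelve_mul_finrank (k i) (h0 i) (he i))]
    simp only [Finset.sum_add_distrib, Finset.sum_sub_distrib, ← Finset.mul_sum,
      Numerics.sum_ite_const, one_mul, Finset.sum_const, Finset.card_univ, hμ, nsmul_eq_mul]
    ring
  have hzpos : (1 : ℤ) ≤ ((Finset.univ.filter fun i => k i = 0).card : ℤ) := by
    obtain ⟨i, hi⟩ := hz
    have : 0 < (Finset.univ.filter fun i => k i = 0).card :=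
      Finset.card_pos.mpr ⟨i, by simp [hi]⟩
    exact_mod_cast this
  have hfin : (μ : ℤ) - 6 * c - 3 * ν₂ - 4 * ν₃ + 12 ≤
      12 * ((∑ i, Module.finrank ℂ (CuspForm 𝒮ℒ (k i + 2)) : ℕ) : ℤ) := by
    rw [hsum]
    linarith
  have hfinQ : ((μ : ℚ) - 6 * c - 3 * ν₂ - 4 * ν₃ + 12) ≤
      12 * ((∑ i, Module.finrank ℂ (CuspForm 𝒮ℒ (k i + 2)) : ℕ) : ℚ) := by
    exact_mod_cast hfin
  unfold ModularCurve.genusFormula
  rw [← hμN, ← hν₂, ← hν₃, ← hc]
  linarith

end Fermat.Agent.S20M
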