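import Mathlib
import Fermat.Agent.S20M.CuspLin

/-!
# S20M, package P5: eigenbasis of a finite-order permutation

For a permutation `σ` of a finite type with `σ ^ n = 1` we produce an invertible matrix `U`
whose columns are eigenvectors of `σ` with eigenvalues `exp (2πi r x / n)`, `0 ≤ r x < n`, and
`2 ∑ r = n (|X| - #orbits)`.  The proof uses the spectral idempotents of the permutation
matrix from `CuspLin.lean`.
-/

set_option autoImplicit false
set_option linter.unusedSectionVars false

open Complex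

namespace Fermat.Agent.S20M

namespace PermAlg

open CuspLin

section Eigen

variable {X : Type} [Fintype X] [DecidableEq X] (σ : Equiv.Perm X) (N : ℕ) [NeZero N]

/-- The eigenspaces of the permutation matrix of `σ`. -/
noncomputable def W (r : ZMod N) : Submodule ℂ (X → ℂ) :=
  LinearMap.range (Matrix.toLin' (E σ N r))

theorem mem_W_iff (hσ : σ ^ N = 1) (r : ZMod N) (v : X → ℂ) :
    v ∈ W σ N r ↔ (E σ N r).mulVec v = v := by
  constructor
  · rintro ⟨w, rfl⟩
    rw [Matrix.toLin'_apply, Matrix.mulVec_mulVec, E_mul_E σ N hσ, if_pos rfl]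
  · intro h
    exact ⟨v, by rw [Matrix.toLin'_apply, h]⟩

theorem E_mulVec_of_mem_ne (hσ : σ ^ N = 1) {r s : ZMod N} (hrs : r ≠ s) {v : X → ℂ}
    (hv : v ∈ W σ N s) : (E σ N r).mulVec v = 0 := by
  obtain ⟨w, rfl⟩ := hv
  rw [Matrix.toLin'_apply, Matrix.mulVec_mulVec, E_mul_E σ N hσ, if_neg hrs, Matrix.zero_mulVec]

theorem isInternal_W (hσ : σ ^ N = 1) : DirectSum.IsInternal (W σ N) := by
  apply DirectSum.isInternal_submodule_of_iSupIndep_of_iSup_eq_top
  · rw [iSupIndep_def]
    intro r
    rw [Submodule.disjoint_def]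
    intro v hv hv'
    have h1 : (E σ N r).mulVec v = v := (mem_W_iff σ N hσ r v).mp hv
    have h2 : (E σ N r).mulVec v = 0 := by
      have hle : (⨆ (s : ZMod N) (_ : s ≠ r), W σ N s) ≤
          LinearMap.ker (Matrix.toLin' (E σ N r)) := by
        refine iSup₂_le fun s hs => ?_
        intro w hw
        rw [LinearMap.mem_ker, Matrix.toLin'_apply]
        exact E_mulVec_of_mem_ne σ N hσ (Ne.symm hs) hw
      have := hle hv'
      rwa [LinearMap.mem_ker, Matrix.toLin'_apply] at this
    rw [← h1, h2]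
  · rw [eq_top_iff]
    intro v _
    have : v = ∑ r : ZMod N, (E σ N r).mulVec v := by
      rw [← Matrix.sum_mulVec, sum_E, Matrix.one_mulVec]
    rw [this]
    exact Submodule.sum_mem _ fun r _ =>
      Submodule.mem_iSup_of_mem r ⟨v, Matrix.toLin'_apply _ _⟩

theorem apply_perm_of_mem_W (hσ : σ ^ N = 1) (r : ZMod N) {v : X → ℂ} (hv : v ∈ W σ N r)
    (y : X) : v (σ y) = (ZMod.stdAddChar r : ℂ) * v y := by
  obtain ⟨w, rfl⟩ := hv
  rw [Matrix.toLin'_apply]
  have h1 : ((E σ N r).mulVec w) ∘ σ = (σ.permMatrix ℂ).mulVec ((E σ N r).mulVec w) := by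
    rw [Matrix.permMatrix_mulVec]
  have h2 := congrFun h1 y
  rw [Function.comp_apply] at h2
  rw [h2, Matrix.mulVec_mulVec, P_mul_E σ N hσ, Matrix.smul_mulVec]
  rfl

theorem finrank_W_eq_rank (r : ZMod N) : Module.finrank ℂ (W σ N r) = (E σ N r).rank := by
  unfold W Matrix.rank
  rw [Matrix.toLin'_apply']

theorem finrank_W_neg (hσ : σ ^ N = 1) (r : ZMod N) :
    Module.finrank ℂ (W σ N (-r)) = Module.finrank ℂ (W σ N r) := by
  rw [finrank_W_eq_rank, finrank_W_eq_rank, ← E_transpose σ N hσ r, Matrix.rank_transpose]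

theorem finrank_W_zero (hσ : σ ^ N = 1) :
    Module.finrank ℂ (W σ N 0) =
      Nat.card (MulAction.orbitRel.Quotient (Subgroup.zpowers σ) X) := by
  unfold W
  rw [range_toLin'_E_zero σ N hσ, Fermat.Agent.S21.PermDim.finrank_ker_funLeft_sub_one]

end Eigen

/-- The orbits of the cyclic group generated by `g` and by the permutation `toPerm g` agree. -/
theorem card_orbits_toPerm {G : Type} [Group G] {X : Type} [MulAction G X] (g : G) :
    Nat.card (MulAction.orbitRel.Quotient
        (Subgroup.zpowers (MulAction.toPerm g : Equiv.Perm X)) X) =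
      Nat.card (MulAction.orbitRel.Quotient (Subgroup.zpowers g) X) := by
  refine Nat.card_congr (Quotient.congrRight fun a b => ?_)
  rw [MulAction.orbitRel_apply, MulAction.orbitRel_apply, MulAction.mem_orbit_iff,
    MulAction.mem_orbit_iff]
  have key : ∀ k : ℤ, ((MulAction.toPerm g : Equiv.Perm X) ^ k) b = g ^ k • b := by
    intro k
    have : (MulAction.toPerm g : Equiv.Perm X) ^ k = MulAction.toPerm (g ^ k) := by
      rw [← MulAction.toPermHom_apply, ← map_zpow]
      rfl
    rw [this]
    rfl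
  constructor
  · rintro ⟨⟨h, hh⟩, rfl⟩
    obtain ⟨k, rfl⟩ := Subgroup.mem_zpowers_iff.mp hh
    exact ⟨⟨g ^ k, Subgroup.zpow_mem_zpowers g k⟩, (key k).symm⟩
  · rintro ⟨⟨h, hh⟩, rfl⟩
    obtain ⟨k, rfl⟩ := Subgroup.mem_zpowers_iff.mp hh
    exact ⟨⟨_, Subgroup.zpow_mem_zpowers (MulAction.toPerm g : Equiv.Perm X) k⟩, key k⟩

end PermAlg

open PermAlg CuspLin in
/-- For a permutation `σ` of a finite type with `σ ^ n = 1` there is an invertible matrix `U`
whose columns are eigenvectors of `σ` with eigenvalues `exp (2πi r x / n)`, `0 ≤ r x < n`,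
and `2 ∑ r = n (|X| - #orbits)`. -/
theorem exists_eigenbasis_of_perm {X : Type} [Fintype X] [DecidableEq X] (σ : Equiv.Perm X)
    (n : ℕ) (hn : 0 < n) (hσ : σ ^ n = 1) :
    ∃ (U : Matrix X X ℂ) (r : X → ℕ), U.det ≠ 0 ∧ (∀ x, r x < n) ∧
      (∀ y x, U (σ y) x = cexp (2 * Real.pi * Complex.I * (r x : ℂ) / (n : ℂ)) * U y x) ∧
      2 * ∑ x, r x = n * (Fintype.card X -
        Nat.card (MulAction.orbitRel.Quotient (Subgroup.zpowers σ) X)) := by
  have : NeZero n := ⟨hn.ne'⟩
  let d : ZMod n → ℕ := fun r => Module.finrank ℂ (W σ n r)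
  let v : ∀ r : ZMod n, Module.Basis (Fin (d r)) ℂ (W σ n r) :=
    fun r => Module.finBasis ℂ (W σ n r)
  let B := (isInternal_W σ n hσ).collectedBasis v
  have hcard : Fintype.card X = Fintype.card (Σ r : ZMod n, Fin (d r)) := by
    rw [← Module.finrank_eq_card_basis B, Module.finrank_fintype_fun_eq_card]
  let eqv : X ≃ Σ r : ZMod n, Fin (d r) := Fintype.equivOfCardEq hcard
  refine ⟨fun y x => B (eqv x) y, fun x => (eqv x).1.val, ?_, fun x => ZMod.val_lt _, ?_, ?_⟩
  · -- invertibility
    have hU : (fun y x => B (eqv x) y : Matrix X X ℂ) =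
        (Pi.basisFun ℂ X).toMatrix (B.reindex eqv.symm) := by
      ext y x
      simp [Module.Basis.toMatrix_apply]
    rw [hU, ← Module.Basis.det_apply]
    exact (Module.Basis.isUnit_det _ _).ne_zero
  · -- eigenvector property
    intro y x
    have hmem := (isInternal_W σ n hσ).collectedBasis_mem v (eqv x)
    have h1 := apply_perm_of_mem_W σ n hσ _ hmem y
    change B (eqv x) (σ y) = _ * B (eqv x) y
    rw [h1, stdAddChar_eq_exp]
  · -- the count
    have hsum : ∑ x, (eqv x).1.val = ∑ r : ZMod n, d r * r.val := by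
      rw [Equiv.sum_comp eqv (fun a : Σ r : ZMod n, Fin (d r) => a.1.val), Fintype.sum_sigma]
      refine Finset.sum_congr rfl fun r _ => ?_
      change ∑ _y : Fin (d r), r.val = d r * r.val
      rw [Finset.sum_const, Finset.card_univ, Fintype.card_fin, smul_eq_mul]
    have hd0 : d 0 = Nat.card (MulAction.orbitRel.Quotient (Subgroup.zpowers σ) X) :=
      finrank_W_zero σ n hσ
    have hdneg : ∀ r, d (-r) = d r := fun r => finrank_W_neg σ n hσ r
    have hdsum : ∑ r, d r = Fintype.card X := by
      rw [hcard, Fintype.card_sigma]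
      simp
    rw [hsum, ← hd0]
    have hneg : ∑ r : ZMod n, d r * (-r).val = ∑ r : ZMod n, d r * r.val := by
      rw [← Equiv.sum_comp (Equiv.neg (ZMod n)) (fun r => d r * r.val)]
      refine Finset.sum_congr rfl fun r _ => ?_
      simp only [Equiv.neg_apply]
      rw [hdneg]
    have hpair : ∀ r : ZMod n, d r * r.val + d r * (-r).val = if r = 0 then 0 else n * d r := by
      intro r
      rw [ZMod.neg_val]
      split_ifs with h
      · subst h
        simp
      · have := (ZMod.val_lt r).le
        rw [← mul_add, Nat.add_sub_cancel' this, mul_comm]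
    have h2 : 2 * ∑ r : ZMod n, d r * r.val = ∑ r : ZMod n, (if r = 0 then 0 else n * d r) := by
      rw [two_mul]
      nth_rewrite 2 [← hneg]
      rw [← Finset.sum_add_distrib]
      exact Finset.sum_congr rfl fun r _ => hpair r
    have h3 : ∑ r : ZMod n, (if r = 0 then 0 else n * d r) + n * d 0 = n * Fintype.card X := by
      rw [← hdsum, Finset.mul_sum]
      have : ∀ r : ZMod n, (if r = 0 then 0 else n * d r) + (if r = 0 then n * d 0 else 0) =
          n * d r := by
        intro r
        split_ifs with h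
        · subst h
          simp
        · simp
      rw [← Finset.sum_congr rfl fun r _ => this r, Finset.sum_add_distrib,
        Finset.sum_ite_eq' Finset.univ (0 : ZMod n)]
      simp
    rw [h2, Nat.mul_sub]
    omega

end Fermat.Agent.S20M
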