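import Mathlib
import Fermat.Agent.S20M.Basic

/-!
# S20M P2: the replacement engine

Replacing the `j`-th member of a frame by `g = (∑ i, c i • E i * f i) / H` gives a frame again;
for a minimal frame this forces `k j ≤ K₀ - h`.
-/

set_option autoImplicit false

open UpperHalfPlane hiding I
open Complex Filter Function
open scoped Manifold MatrixGroups ModularForm Topology
open ModularForm EisensteinSeries

namespace Fermat.Agent.S20M

open Fermat.Agent.S20 (X0)
open CongruenceSubgroup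

namespace Replace

/-- There is a point where three nonzero holomorphic functions are simultaneously nonzero. -/
theorem exists_ne_zero₃ {a b c : ℍ → ℂ} (ha : MDiff a) (hb : MDiff b) (hc : MDiff c)
    (ha0 : a ≠ 0) (hb0 : b ≠ 0) (hc0 : c ≠ 0) : ∃ τ, a τ ≠ 0 ∧ b τ ≠ 0 ∧ c τ ≠ 0 := by
  by_contra hcon
  push Not at hcon
  have h : a * b * c = 0 := by
    funext τ
    simp only [Pi.mul_apply, Pi.zero_apply]
    by_cases h1 : a τ = 0
    · simp [h1]
    · by_cases h2 : b τ = 0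
      · simp [h2]
      · simp [hcon τ h1 h2]
  rcases Fermat.Agent.S23.mdiff_eq_zero_or_eq_zero (ha.mul hb) hc h with h1 | h1
  · rcases Fermat.Agent.S23.mdiff_eq_zero_or_eq_zero ha hb h1 with h2 | h2
    · exact ha0 h2
    · exact hb0 h2
  · exact hc0 h1

/-- The row identity behind the replacement. -/
theorem row_identity {N : ℕ} [NeZero N] {k : X0 N → ℤ} {f : X0 N → ℍ → ℂ}
    (c : X0 N → ℂ) (m : X0 N → ℤ) (E : X0 N → ℍ → ℂ) (K₀ h : ℤ) (H g : ℍ → ℂ)
    (hE : ∀ i, c i ≠ 0 → IsL1 (m i) (E i)) (hm : ∀ i, c i ≠ 0 → m i + k i = K₀)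
    (hH : IsL1 h H)
    (hgH : ∀ z, g z * H z = ∑ i, c i * (E i z * f i z)) (x : X0 N) (τ : ℍ) :
    H τ * conjK N (K₀ - h) g x τ = ∑ i, (c i * E i τ) * Mat N k f τ i x := by
  have e1 : H * g = ∑ i, c i • (E i * f i) := by
    funext z
    rw [Pi.mul_apply, mul_comm, hgH z, Finset.sum_apply]
    rfl
  have e2 : conjK N (h + (K₀ - h)) (H * g) x = H * conjK N (K₀ - h) g x :=
    conjK_mul_of_isL1 N hH (K₀ - h) g x
  have e3 : h + (K₀ - h) = K₀ := by ring
  rw [e3, e1, conjK_sum] at e2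
  have e4 := congrFun e2 τ
  rw [Finset.sum_apply, Pi.mul_apply] at e4
  rw [← e4]
  refine Finset.sum_congr rfl (fun i _ => ?_)
  by_cases hci : c i = 0
  · rw [hci, zero_smul, conjK_zero]
    simp
  · rw [conjK_smul, ← hm i hci, conjK_mul_of_isL1 N (hE i hci) (k i) (f i) x, Mat_apply]
    simp only [Pi.smul_apply, Pi.mul_apply, smul_eq_mul]
    ring

/-- The determinant identity behind the replacement. -/
theorem det_identity {N : ℕ} [NeZero N] {k : X0 N → ℤ} {f : X0 N → ℍ → ℂ}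
    (j : X0 N) (c : X0 N → ℂ)
    (m : X0 N → ℤ) (E : X0 N → ℍ → ℂ) (K₀ h : ℤ) (H g : ℍ → ℂ)
    (hE : ∀ i, c i ≠ 0 → IsL1 (m i) (E i)) (hm : ∀ i, c i ≠ 0 → m i + k i = K₀)
    (hH : IsL1 h H)
    (hgH : ∀ z, g z * H z = ∑ i, c i * (E i z * f i z)) (τ : ℍ) :
    H τ * (Mat N (Function.update k j (K₀ - h)) (Function.update f j g) τ).det =
      c j * E j τ * (Mat N k f τ).det := by
  have e1 : Mat N (Function.update k j (K₀ - h)) (Function.update f j g) τ =
      (Mat N k f τ).updateRow j (fun x => conjK N (K₀ - h) g x τ) := by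
    ext i x
    rw [Matrix.updateRow_apply, Mat_apply]
    by_cases hij : i = j
    · subst hij
      simp
    · simp [hij, Mat_apply]
  have e2 : (Mat N k f τ).updateRow j (H τ • fun x => conjK N (K₀ - h) g x τ) =
      (Mat N k f τ).updateRow j (∑ i, (c i * E i τ) • (Mat N k f τ) i) := by
    congr 1
    funext x
    rw [Pi.smul_apply, smul_eq_mul, row_identity c m E K₀ h H g hE hm hH hgH x τ,
      Finset.sum_apply]
    rfl
  have e3 := Matrix.det_updateRow_smul (Mat N k f τ) j (H τ) (fun x => conjK N (K₀ - h) g x τ)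
  have e4 := Matrix.det_updateRow_sum (Mat N k f τ) j (fun i => c i * E i τ)
  rw [e1, ← e3, e2, e4, smul_eq_mul]

end Replace

/-- Replacing the `j`-th member of a frame by `g = (∑ i, c i • E i * f i) / H`. -/
theorem IsFrame.replace {N : ℕ} [NeZero N] {k : X0 N → ℤ} {f : X0 N → ℍ → ℂ}
    (hkf : IsFrame N k f) (j : X0 N) (c : X0 N → ℂ) (hcj : c j ≠ 0)
    (m : X0 N → ℤ) (E : X0 N → ℍ → ℂ) (K₀ h : ℤ) (H g : ℍ → ℂ)
    (hE : ∀ i, c i ≠ 0 → IsL1 (m i) (E i)) (hm : ∀ i, c i ≠ 0 → m i + k i = K₀)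
    (hEj : E j ≠ 0) (hH : IsL1 h H) (hH0 : H ≠ 0) (hg : IsMF N (K₀ - h) g)
    (hgH : ∀ z, g z * H z = ∑ i, c i * (E i z * f i z)) :
    IsFrame N (Function.update k j (K₀ - h)) (Function.update f j g) := by
  refine ⟨fun i => ?_, ?_⟩
  · by_cases hij : i = j
    · subst hij
      simpa using hg
    · simpa [hij] using hkf.mf i
  · obtain ⟨τ, h1, h2, h3⟩ := Replace.exists_ne_zero₃ hH.mdiff (hE j hcj).mdiff
      (mdiff_det hkf.mf) hH0 hEj hkf.det_fun_ne_zero
    refine ⟨τ, fun h0 => ?_⟩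
    have := Replace.det_identity j c m E K₀ h H g hE hm hH hgH τ
    rw [h0, mul_zero] at this
    exact mul_ne_zero (mul_ne_zero hcj h2) h3 this.symm

/-- Minimality forbids weight-lowering replacements. -/
theorem IsMinFrame.le_of_replace {N : ℕ} [NeZero N] {k : X0 N → ℤ} {f : X0 N → ℍ → ℂ}
    (hkf : IsMinFrame N k f) (j : X0 N) (c : X0 N → ℂ) (hcj : c j ≠ 0)
    (m : X0 N → ℤ) (E : X0 N → ℍ → ℂ) (K₀ h : ℤ) (H g : ℍ → ℂ)
    (hE : ∀ i, c i ≠ 0 → IsL1 (m i) (E i)) (hm : ∀ i, c i ≠ 0 → m i + k i = K₀)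
    (hEj : E j ≠ 0) (hH : IsL1 h H) (hH0 : H ≠ 0) (hg : IsMF N (K₀ - h) g)
    (hgH : ∀ z, g z * H z = ∑ i, c i * (E i z * f i z)) :
    k j ≤ K₀ - h := by
  have h1 := hkf.2 _ _ (hkf.1.replace j c hcj m E K₀ h H g hE hm hEj hH hH0 hg hgH)
  have h2 : ∑ i, Function.update k j (K₀ - h) i = ∑ i, k i - k j + (K₀ - h) := by
    rw [← Finset.add_sum_erase _ _ (Finset.mem_univ j), ← Finset.add_sum_erase _ k
      (Finset.mem_univ j)]
    have : ∑ x ∈ Finset.univ.erase j, Function.update k j (K₀ - h) x =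
        ∑ x ∈ Finset.univ.erase j, k x := by
      refine Finset.sum_congr rfl (fun x hx => ?_)
      rw [Function.update_of_ne (Finset.ne_of_mem_erase hx)]
    rw [this, Function.update_self]
    ring
  rw [h2] at h1
  linarith

end Fermat.Agent.S20M
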